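import Fermat.Agent.S41.CSPL.Defs

set_option autoImplicit false
set_option linter.unusedSimpArgs false
set_option linter.unusedVariables false

/-!
# S41 / CSPL : from the Ihara kernel relation (K) to the `Core` package

(K)  `X₁ g + X₂ (d g d⁻¹) = 0` for `g ∈ Γ₀(Nq)`, `d = diag(q,1)`.
(K') `X₂ g + X₁ (d g d⁻¹) = 0`: conjugate by `W = (q,y;Nq,qw)`, `qw - Ny = 1`.
-/

namespace Fermat.Agent.S41.CSPL

open Matrix Matrix.SpecialLinearGroup CongruenceSubgroup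
open scoped MatrixGroups

variable {N q p : ℕ} {F : Type*} [AddCommGroup F] {X₁ X₂ : SL(2, ℤ) → F}

/-- `γ' = q⁻¹ d γ d`. -/
def Sq (m : ℤ) (g g' : SL(2, ℤ)) : Prop :=
  g' 0 0 = m * g 0 0 ∧ g' 0 1 = g 0 1 ∧ g' 1 0 = g 1 0 ∧ g 1 1 = m * g' 1 1

theorem rel_of_sq {m : ℤ} {g g' h h' : SL(2, ℤ)} (hg : Sq m g g') (hh : Sq m h h') :
    Rel m (g * h⁻¹) (g' * h'⁻¹) := by
  obtain ⟨a1, a2, a3, a4⟩ := hg
  obtain ⟨b1, b2, b3, b4⟩ := hh
  refine ⟨?_, ?_, ?_, ?_⟩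
  · rw [mul_00, mul_00, inv_00, inv_00, inv_10, inv_10, a1, a2, b3, b4]; ring
  · rw [mul_01, mul_01, inv_01, inv_01, inv_11, inv_11, a1, a2, b1, b2]; ring
  · rw [mul_10, mul_10, inv_00, inv_00, inv_10, inv_10, a3, a4, b3, b4]; ring
  · rw [mul_11, mul_11, inv_01, inv_01, inv_11, inv_11, a3, a4, b1, b2]; ring

theorem kernel_swap (hqN : IsCoprime (q : ℤ) (N : ℤ)) (h₁ : Par N X₁) (h₂ : Par N X₂)
    (K : ∀ g g', g ∈ Gamma0 N → g' ∈ Gamma0 N → Rel q g g' → X₁ g + X₂ g' = 0)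
    (g g' : SL(2, ℤ)) (hg : g ∈ Gamma0 N) (hg' : g' ∈ Gamma0 N) (hr : Rel q g g') :
    X₂ g + X₁ g' = 0 := by
  obtain ⟨w, y', hwy⟩ := hqN
  -- `w * q + y' * N = 1`
  let g1 : SL(2, ℤ) := mk 1 (-y') N (q * w) (by linear_combination hwy)
  let g2 : SL(2, ℤ) := mk q (-y') N w (by linear_combination hwy)
  have hg1 : g1 ∈ Gamma0 N := mem_G0.mpr (by simp [g1])
  have hg2 : g2 ∈ Gamma0 N := mem_G0.mpr (by simp [g2])
  have hG : g2⁻¹ * g' * g2 ∈ Gamma0 N := mul_mem (mul_mem (inv_mem hg2) hg') hg2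
  have hk : g1⁻¹ * g * g1 ∈ Gamma0 N := mul_mem (mul_mem (inv_mem hg1) hg) hg1
  obtain ⟨r1, r2, r3, r4⟩ := hr
  have hrel : Rel q (g2⁻¹ * g' * g2) (g1⁻¹ * g * g1) := by
    refine ⟨?_, ?_, ?_, ?_⟩
    · simp only [mul_00, mul_01, mul_10, mul_11, inv_00, inv_01, inv_10, inv_11, g1, g2, mk_00,
        mk_01, mk_10, mk_11, r1, r2, r3, r4]
      ring
    · simp only [mul_00, mul_01, mul_10, mul_11, inv_00, inv_01, inv_10, inv_11, g1, g2, mk_00,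
        mk_01, mk_10, mk_11, r1, r2, r3, r4]
      ring
    · simp only [mul_00, mul_01, mul_10, mul_11, inv_00, inv_01, inv_10, inv_11, g1, g2, mk_00,
        mk_01, mk_10, mk_11, r1, r2, r3, r4]
      ring
    · simp only [mul_00, mul_01, mul_10, mul_11, inv_00, inv_01, inv_10, inv_11, g1, g2, mk_00,
        mk_01, mk_10, mk_11, r1, r2, r3, r4]
      ring
  have h := K _ _ hG hk hrel
  have e1 : X₁ (g2⁻¹ * g' * g2) = X₁ g' := by
    have := h₁.conj (inv_mem hg2) hg'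
    rwa [inv_inv] at this
  have e2 : X₂ (g1⁻¹ * g * g1) = X₂ g := by
    have := h₂.conj (inv_mem hg1) hg
    rwa [inv_inv] at this
  rw [e1, e2] at h
  rw [add_comm]; exact h

/-- `X₁ γ'' - X₁ δ'' = X₁ γ - X₁ δ`. -/
theorem sq_sq_diff (hqN : IsCoprime (q : ℤ) (N : ℤ)) (h₁ : Par N X₁) (h₂ : Par N X₂)
    (K : ∀ g g', g ∈ Gamma0 N → g' ∈ Gamma0 N → Rel q g g' → X₁ g + X₂ g' = 0)
    {g g' g'' h h' h'' : SL(2, ℤ)} (hg : g ∈ Gamma0 N) (hg' : g' ∈ Gamma0 N)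
    (hg'' : g'' ∈ Gamma0 N) (hh : h ∈ Gamma0 N) (hh' : h' ∈ Gamma0 N) (hh'' : h'' ∈ Gamma0 N)
    (s1 : Sq q g g') (s2 : Sq q g' g'') (t1 : Sq q h h') (t2 : Sq q h' h'') :
    X₁ g'' - X₁ h'' = X₁ g - X₁ h := by
  have a := K _ _ (mul_mem hg (inv_mem hh)) (mul_mem hg' (inv_mem hh')) (rel_of_sq s1 t1)
  have b := kernel_swap hqN h₁ h₂ K _ _ (mul_mem hg' (inv_mem hh')) (mul_mem hg'' (inv_mem hh''))
    (rel_of_sq s2 t2)
  rw [h₁.add _ _ hg (inv_mem hh), h₂.add _ _ hg' (inv_mem hh'), h₁.inv hh, h₂.inv hh'] at a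
  rw [h₂.add _ _ hg' (inv_mem hh'), h₁.add _ _ hg'' (inv_mem hh''), h₂.inv hh', h₁.inv hh''] at b
  have : (X₁ g'' - X₁ h'') - (X₁ g - X₁ h) =
      (X₂ g' + -X₂ h' + (X₁ g'' + -X₁ h'')) - (X₁ g + -X₁ h + (X₂ g' + -X₂ h')) := by abel
  rw [a, b, sub_zero] at this
  exact sub_eq_zero.mp this

/-- a triple `γ, γ', γ''` over a column `(x, y)`, `q ∤ y`. -/
theorem exists_triple {x y : ℤ} (hxy : IsCoprime x y) (hqy : IsCoprime (q : ℤ) y)
    (hy : (N : ℤ) ∣ y) :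
    ∃ g g' g'' : SL(2, ℤ), g ∈ Gamma0 N ∧ g' ∈ Gamma0 N ∧ g'' ∈ Gamma0 N ∧ Sq q g g' ∧ Sq q g' g'' ∧
      g 0 0 = x ∧ g 1 0 = y ∧ g'' 0 0 = (q : ℤ) ^ 2 * x ∧ g'' 1 0 = y := by
  have hc : IsCoprime ((q : ℤ) ^ 2 * x) y := (hqy.pow_left).mul_left hxy
  obtain ⟨e, b, hb⟩ := hc
  -- `e * (q^2 x) + b * y = 1`
  refine ⟨mk x (-b) y ((q : ℤ) ^ 2 * e) (by linear_combination hb),
    mk (q * x) (-b) y (q * e) (by linear_combination hb),
    mk ((q : ℤ) ^ 2 * x) (-b) y e (by linear_combination hb),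
    mem_G0.mpr (by simpa using hy), mem_G0.mpr (by simpa using hy), mem_G0.mpr (by simpa using hy),
    ⟨by simp, by simp, by simp, by simp; ring⟩, ⟨by simp; ring, by simp, by simp, by simp⟩,
    by simp, by simp, by simp, by simp⟩

theorem exists_shift (hqN : IsCoprime (q : ℤ) (N : ℤ)) (h₁ : Par N X₁) (h₂ : Par N X₂)
    (K : ∀ g g', g ∈ Gamma0 N → g' ∈ Gamma0 N → Rel q g g' → X₁ g + X₂ g' = 0) :
    ∃ c0 : F, ∀ x y : ℤ, IsCoprime x y → IsCoprime (q : ℤ) y → (N : ℤ) ∣ y →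
      sym X₁ ((q : ℤ) ^ 2 * x) y = sym X₁ x y + c0 := by
  obtain ⟨h, h', h'', hh, hh', hh'', t1, t2, -, -, -, -⟩ :=
    exists_triple (N := N) (q := q) (x := 1) (y := N) isCoprime_one_left hqN dvd_rfl
  refine ⟨X₁ h'' - X₁ h, fun x y hxy hqy hy => ?_⟩
  obtain ⟨g, g', g'', hg, hg', hg'', s1, s2, e1, e2, e3, e4⟩ := exists_triple (N := N) hxy hqy hy
  have := sq_sq_diff hqN h₁ h₂ K hg hg' hg'' hh hh' hh'' s1 s2 t1 t2
  rw [← h₁.eq_sym' hg e1 e2, ← h₁.eq_sym' hg'' e3 e4]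
  have e : X₁ g'' = (X₁ g'' - X₁ h'') + X₁ h'' := by abel
  rw [e, this]; abel

theorem core_of_kernel [NeZero N] (hq : q.Prime) (hqN : ¬ q ∣ N) (hp : p.Prime)
    (h₁ : Par N X₁) (h₂ : Par N X₂) (tors : ∀ x : F, p • x = 0)
    (K : ∀ g g', g ∈ Gamma0 N → g' ∈ Gamma0 N → Rel q g g' → X₁ g + X₂ g' = 0) :
    Core N q p X₁ := by
  have hqZ : Prime (q : ℤ) := Nat.prime_iff_prime_int.mp hq
  have hcop : IsCoprime (q : ℤ) (N : ℤ) := by
    rw [Prime.coprime_iff_not_dvd hqZ]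
    exact fun h => hqN (Int.natCast_dvd_natCast.mp h)
  refine { toPar := h₁, tors := tors, unit := ?_, base := ?_ }
  · intro g g' hg hg' hqg e10 e00
    obtain ⟨c0, hc0⟩ := exists_shift hcop h₁ h₂ K
    have hqy : IsCoprime (q : ℤ) (g 1 0) := (Prime.coprime_iff_not_dvd hqZ).mpr hqg
    have hy : (N : ℤ) ∣ g 1 0 := mem_G0.mp hg
    have key : ∀ j : ℕ, sym X₁ (((q : ℤ) ^ 2) ^ j * g 0 0) (g 1 0) =
        sym X₁ (g 0 0) (g 1 0) + j • c0 := by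
      intro j
      induction j with
      | zero => simp
      | succ j ih =>
        have hc : IsCoprime (((q : ℤ) ^ 2) ^ j * g 0 0) (g 1 0) :=
          (hqy.pow_left.pow_left).mul_left (isCoprime_col g)
        have := hc0 _ _ hc hqy hy
        rw [ih] at this
        rw [pow_succ, mul_comm (((q : ℤ) ^ 2) ^ j) ((q : ℤ) ^ 2), mul_assoc, this, succ_nsmul,
          add_assoc]
    rw [h₁.eq_sym' hg' e00 e10, pow_mul, key p, tors, add_zero, ← h₁.eq_sym hg]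
  · intro g hg e10 ha
    have hd := det_eq g
    let g' : SL(2, ℤ) := mk (g 0 0) (q * g 0 1) N (g 1 1) (by rw [e10] at hd; linear_combination hd)
    have hg' : g' ∈ Gamma0 N := mem_G0.mpr (by simp [g'])
    have hr : Rel q g g' := ⟨by simp [g'], by simp [g'], by simp [g', e10]; ring, by simp [g']⟩
    have h := K g g' hg hg' hr
    have h0 : X₂ g' = 0 := by
      rw [h₂.eq_sym' hg' (a := g 0 0) (c := N) (by simp [g']) (by simp [g']),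
        h₂.sym_congr (a := 1) isCoprime_one_left dvd_rfl ha,
        ← h₂.eq_sym' (E21_mem (N := N) (t := N) dvd_rfl) (by simp) (by simp), h₂.E21 dvd_rfl]
    rwa [h0, add_zero] at h

end Fermat.Agent.S41.CSPL
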