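import Fermat.Agent.S41.CSPL.StepC
import Fermat.Agent.S41.CSPL.Unit

set_option autoImplicit false

/-!
# S41 / CSP : Ihara's lemma, elementary form

`X₁, X₂ : Γ₀(N) → F` (`pF = 0`, `p` odd) parabolic homomorphisms with
`X₁ g + X₂ (d g d⁻¹) = 0` on `Γ₀(Nq)` vanish on `Γ₁(N)`.
-/

namespace Fermat.Agent.S41.CSPL

open Matrix Matrix.SpecialLinearGroup CongruenceSubgroup
open scoped MatrixGroups

variable {N q p : ℕ} {F : Type*} [AddCommGroup F] {X₁ X₂ : SL(2, ℤ) → F}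

theorem ihara [NeZero N] (hq : q.Prime) (hqN : ¬ q ∣ N) (hp : p.Prime) (hp2 : p ≠ 2)
    (h₁ : Par N X₁) (h₂ : Par N X₂) (tors : ∀ x : F, p • x = 0)
    (K : ∀ g g', g ∈ Gamma0 N → g' ∈ Gamma0 N → Rel q g g' → X₁ g + X₂ g' = 0)
    {g : SL(2, ℤ)} (hg : g ∈ Gamma1 N) : X₁ g = 0 :=
  core_vanish hq hqN hp hp2 (core_of_kernel hq hqN hp h₁ h₂ tors K) hg

end Fermat.Agent.S41.CSPL
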