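import Mathlib

set_option autoImplicit false

/-!
# S41 / CSP : Ihara's lemma by elementary means (definitions and the symbol)

`X : SL(2,ℤ) → F` is additive on `Γ₀(N)` and kills the elements of trace `2`.
`sym X a c` is the value of `X` on any element of `Γ₀(N)` with first column `(a, c)`.
-/

namespace Fermat.Agent.S41.CSPL

open Matrix Matrix.SpecialLinearGroup CongruenceSubgroup
open scoped MatrixGroups

/-- the matrix `(a b; c d)` of determinant one. -/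
def mk (a b c d : ℤ) (h : a * d - b * c = 1) : SL(2, ℤ) :=
  ⟨!![a, b; c, d], by rw [Matrix.det_fin_two_of]; exact h⟩

@[simp] theorem mk_00 (a b c d : ℤ) (h : a * d - b * c = 1) : mk a b c d h 0 0 = a := rfl
@[simp] theorem mk_01 (a b c d : ℤ) (h : a * d - b * c = 1) : mk a b c d h 0 1 = b := rfl
@[simp] theorem mk_10 (a b c d : ℤ) (h : a * d - b * c = 1) : mk a b c d h 1 0 = c := rfl
@[simp] theorem mk_11 (a b c d : ℤ) (h : a * d - b * c = 1) : mk a b c d h 1 1 = d := rfl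

theorem det_eq (g : SL(2, ℤ)) : g 0 0 * g 1 1 - g 0 1 * g 1 0 = 1 := by
  have := g.det_coe
  rwa [Matrix.det_fin_two] at this

theorem ext4 {g h : SL(2, ℤ)} (h00 : g 0 0 = h 0 0) (h01 : g 0 1 = h 0 1) (h10 : g 1 0 = h 1 0)
    (h11 : g 1 1 = h 1 1) : g = h := by
  ext i j
  fin_cases i <;> fin_cases j <;> assumption

theorem mul_00 (g h : SL(2, ℤ)) : (g * h) 0 0 = g 0 0 * h 0 0 + g 0 1 * h 1 0 := by
  simp [Matrix.mul_apply, Fin.sum_univ_two]
theorem mul_01 (g h : SL(2, ℤ)) : (g * h) 0 1 = g 0 0 * h 0 1 + g 0 1 * h 1 1 := by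
  simp [Matrix.mul_apply, Fin.sum_univ_two]
theorem mul_10 (g h : SL(2, ℤ)) : (g * h) 1 0 = g 1 0 * h 0 0 + g 1 1 * h 1 0 := by
  simp [Matrix.mul_apply, Fin.sum_univ_two]
theorem mul_11 (g h : SL(2, ℤ)) : (g * h) 1 1 = g 1 0 * h 0 1 + g 1 1 * h 1 1 := by
  simp [Matrix.mul_apply, Fin.sum_univ_two]

theorem inv_00 (g : SL(2, ℤ)) : (g⁻¹) 0 0 = g 1 1 := by
  simp [Matrix.SpecialLinearGroup.coe_inv, Matrix.adjugate_fin_two]
theorem inv_01 (g : SL(2, ℤ)) : (g⁻¹) 0 1 = - g 0 1 := by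
  simp [Matrix.SpecialLinearGroup.coe_inv, Matrix.adjugate_fin_two]
theorem inv_10 (g : SL(2, ℤ)) : (g⁻¹) 1 0 = - g 1 0 := by
  simp [Matrix.SpecialLinearGroup.coe_inv, Matrix.adjugate_fin_two]
theorem inv_11 (g : SL(2, ℤ)) : (g⁻¹) 1 1 = g 0 0 := by
  simp [Matrix.SpecialLinearGroup.coe_inv, Matrix.adjugate_fin_two]

/-- upper elementary matrix. -/
def E12 (t : ℤ) : SL(2, ℤ) := mk 1 t 0 1 (by ring)
/-- lower elementary matrix. -/
def E21 (t : ℤ) : SL(2, ℤ) := mk 1 0 t 1 (by ring)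

@[simp] theorem E12_00 (t : ℤ) : E12 t 0 0 = 1 := rfl
@[simp] theorem E12_01 (t : ℤ) : E12 t 0 1 = t := rfl
@[simp] theorem E12_10 (t : ℤ) : E12 t 1 0 = 0 := rfl
@[simp] theorem E12_11 (t : ℤ) : E12 t 1 1 = 1 := rfl
@[simp] theorem E21_00 (t : ℤ) : E21 t 0 0 = 1 := rfl
@[simp] theorem E21_01 (t : ℤ) : E21 t 0 1 = 0 := rfl
@[simp] theorem E21_10 (t : ℤ) : E21 t 1 0 = t := rfl
@[simp] theorem E21_11 (t : ℤ) : E21 t 1 1 = 1 := rfl

theorem mem_G0 {N : ℕ} {g : SL(2, ℤ)} : g ∈ Gamma0 N ↔ (N : ℤ) ∣ g 1 0 := by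
  rw [Gamma0_mem, ZMod.intCast_zmod_eq_zero_iff_dvd]

theorem E12_mem (N : ℕ) (t : ℤ) : E12 t ∈ Gamma0 N := by
  rw [mem_G0]; simp

theorem E21_mem {N : ℕ} {t : ℤ} (h : (N : ℤ) ∣ t) : E21 t ∈ Gamma0 N := by
  rw [mem_G0]; simpa using h

/-- additive on `Γ₀(N)`, trivial on the elements of trace two. -/
structure Par (N : ℕ) {F : Type*} [AddCommGroup F] (X : SL(2, ℤ) → F) : Prop where
  add : ∀ g h, g ∈ Gamma0 N → h ∈ Gamma0 N → X (g * h) = X g + X h
  unip : ∀ g, g ∈ Gamma0 N → g 0 0 + g 1 1 = 2 → X g = 0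

/-- `g' = d g d⁻¹`, `d = diag(m, 1)`. -/
def Rel (m : ℤ) (g g' : SL(2, ℤ)) : Prop :=
  g' 0 0 = g 0 0 ∧ g' 0 1 = m * g 0 1 ∧ g 1 0 = m * g' 1 0 ∧ g' 1 1 = g 1 1

/-- the hypotheses of the core theorem (steps A, B, C). -/
structure Core (N q p : ℕ) {F : Type*} [AddCommGroup F] (X : SL(2, ℤ) → F) : Prop
    extends Par N X where
  tors : ∀ x : F, p • x = 0
  unit : ∀ g g', g ∈ Gamma0 N → g' ∈ Gamma0 N → ¬ (q : ℤ) ∣ g 1 0 → g' 1 0 = g 1 0 →
    g' 0 0 = (q : ℤ) ^ (2 * p) * g 0 0 → X g' = X g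
  base : ∀ g, g ∈ Gamma0 N → g 1 0 = (N : ℤ) * q → (N : ℤ) ∣ g 0 0 - 1 → X g = 0

section Par

variable {N : ℕ} {F : Type*} [AddCommGroup F] {X : SL(2, ℤ) → F}

theorem Par.one (hX : Par N X) : X 1 = 0 := by
  have := hX.add 1 1 (one_mem _) (one_mem _)
  rw [mul_one] at this
  exact left_eq_add.mp this

theorem Par.inv (hX : Par N X) {g : SL(2, ℤ)} (hg : g ∈ Gamma0 N) : X g⁻¹ = - X g := by
  have := hX.add g g⁻¹ hg (inv_mem hg)
  rw [mul_inv_cancel, hX.one] at this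
  exact (neg_eq_of_add_eq_zero_right this.symm).symm

theorem Par.conj (hX : Par N X) {g h : SL(2, ℤ)} (hg : g ∈ Gamma0 N) (hh : h ∈ Gamma0 N) :
    X (g * h * g⁻¹) = X h := by
  rw [hX.add _ _ (mul_mem hg hh) (inv_mem hg), hX.add _ _ hg hh, hX.inv hg]
  abel

theorem Par.E12 (hX : Par N X) (t : ℤ) : X (E12 t) = 0 :=
  hX.unip _ (E12_mem N t) (by simp)

theorem Par.E21 (hX : Par N X) {t : ℤ} (h : (N : ℤ) ∣ t) : X (E21 t) = 0 :=
  hX.unip _ (E21_mem h) (by simp)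

theorem Par.pow (hX : Par N X) {g : SL(2, ℤ)} (hg : g ∈ Gamma0 N) (k : ℕ) :
    X (g ^ k) = k • X g := by
  induction k with
  | zero => simp [hX.one]
  | succ k ih => rw [pow_succ, hX.add _ _ (pow_mem hg k) hg, ih, succ_nsmul]

/-- two elements of `Γ₀(N)` with the same first column have the same value. -/
theorem Par.eq_of_col (hX : Par N X) {g h : SL(2, ℤ)} (hg : g ∈ Gamma0 N) (hh : h ∈ Gamma0 N)
    (h0 : g 0 0 = h 0 0) (h1 : g 1 0 = h 1 0) : X g = X h := by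
  have e : h = g * CSPL.E12 (g 1 1 * h 0 1 - g 0 1 * h 1 1) := by
    have d1 := det_eq g
    have d2 := det_eq h
    apply ext4
    · rw [mul_00]; simp [h0]
    · rw [mul_01]; simp only [E12_01, E12_11]
      linear_combination (-(h 0 1)) * d1 + (g 0 1) * d2 + (g 0 1 * h 1 1) * h0 - (g 0 1 * h 0 1) * h1
    · rw [mul_10]; simp [h1]
    · rw [mul_11]; simp only [E12_01, E12_11]
      linear_combination (-(h 1 1)) * d1 + (g 1 1) * d2 + (g 1 1 * h 1 1) * h0 - (g 1 1 * h 0 1) * h1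
  rw [e, hX.add _ _ hg (E12_mem N _), hX.E12, add_zero]

end Par

/-- a matrix with first column `(a, c)`. -/
noncomputable def matOf (a c : ℤ) (h : IsCoprime a c) : SL(2, ℤ) :=
  mk a (- h.choose_spec.choose) c h.choose (by
    have := h.choose_spec.choose_spec
    linear_combination this)

@[simp] theorem matOf_00 (a c : ℤ) (h : IsCoprime a c) : matOf a c h 0 0 = a := rfl
@[simp] theorem matOf_10 (a c : ℤ) (h : IsCoprime a c) : matOf a c h 1 0 = c := rfl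

theorem isCoprime_col (g : SL(2, ℤ)) : IsCoprime (g 0 0) (g 1 0) :=
  ⟨g 1 1, - g 0 1, by linear_combination det_eq g⟩

open Classical in
/-- the symbol. -/
noncomputable def sym {F : Type*} [AddCommGroup F] (X : SL(2, ℤ) → F) (a c : ℤ) : F :=
  if h : IsCoprime a c then X (matOf a c h) else 0

section Sym

variable {N : ℕ} {F : Type*} [AddCommGroup F] {X : SL(2, ℤ) → F}

theorem Par.eq_sym (hX : Par N X) {g : SL(2, ℤ)} (hg : g ∈ Gamma0 N) :
    X g = sym X (g 0 0) (g 1 0) := by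
  rw [sym, dif_pos (isCoprime_col g)]
  exact hX.eq_of_col hg (mem_G0.mpr (by simpa using mem_G0.mp hg)) (by simp) (by simp)

theorem Par.eq_sym' (hX : Par N X) {g : SL(2, ℤ)} (hg : g ∈ Gamma0 N) {a c : ℤ}
    (h0 : g 0 0 = a) (h1 : g 1 0 = c) : X g = sym X a c := by
  rw [hX.eq_sym hg, h0, h1]

theorem exists_mat {a c : ℤ} (h : IsCoprime a c) (hc : (N : ℤ) ∣ c) :
    ∃ g : SL(2, ℤ), g ∈ Gamma0 N ∧ g 0 0 = a ∧ g 1 0 = c :=
  ⟨matOf a c h, mem_G0.mpr (by simpa using hc), rfl, rfl⟩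

/-- invariance of the symbol under left multiplication by an element where `X` vanishes. -/
theorem Par.sym_mul (hX : Par N X) {P : SL(2, ℤ)} (hP : P ∈ Gamma0 N) (hP0 : X P = 0) {a c : ℤ}
    (h : IsCoprime a c) (hc : (N : ℤ) ∣ c) :
    sym X (P 0 0 * a + P 0 1 * c) (P 1 0 * a + P 1 1 * c) = sym X a c := by
  obtain ⟨g, hg, h0, h1⟩ := exists_mat h hc
  rw [← hX.eq_sym' hg h0 h1, ← hX.eq_sym' (mul_mem hP hg) (by rw [mul_00, h0, h1])
    (by rw [mul_10, h0, h1]), hX.add _ _ hP hg, hP0, zero_add]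

/-- (S2) -/
theorem Par.sym_add_mul (hX : Par N X) {a c : ℤ} (h : IsCoprime a c) (hc : (N : ℤ) ∣ c) (t : ℤ) :
    sym X (a + t * c) c = sym X a c := by
  have := hX.sym_mul (E12_mem N t) (hX.E12 t) h hc
  simpa using this

/-- (S1) -/
theorem Par.sym_add_mul' (hX : Par N X) {a c : ℤ} (h : IsCoprime a c) (hc : (N : ℤ) ∣ c) (t : ℤ) :
    sym X a (c + N * t * a) = sym X a c := by
  have := hX.sym_mul (E21_mem (Dvd.intro t rfl)) (hX.E21 (Dvd.intro t rfl)) h hc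
  simp only [E21_00, one_mul, E21_01, zero_mul, add_zero, E21_10, E21_11] at this
  rwa [add_comm] at this

/-- (S2), congruence form -/
theorem Par.sym_congr (hX : Par N X) {a a' c : ℤ} (h : IsCoprime a c) (hc : (N : ℤ) ∣ c)
    (haa : c ∣ a' - a) : sym X a' c = sym X a c := by
  obtain ⟨t, ht⟩ := haa
  have : a' = a + t * c := by linear_combination ht
  rw [this, hX.sym_add_mul h hc]

/-- (S1), congruence form -/
theorem Par.sym_congr' (hX : Par N X) {a c c' : ℤ} (h : IsCoprime a c) (hc : (N : ℤ) ∣ c)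
    (hcc : (N : ℤ) * a ∣ c' - c) : sym X a c' = sym X a c := by
  obtain ⟨t, ht⟩ := hcc
  have : c' = c + N * t * a := by linear_combination ht
  rw [this, hX.sym_add_mul' h hc]

end Sym

section Core

variable {N q p : ℕ} {F : Type*} [AddCommGroup F] {X : SL(2, ℤ) → F}

/-- (Q2) -/
theorem Core.sym_unit (hX : Core N q p X) {a c : ℤ} (h : IsCoprime a c) (hc : (N : ℤ) ∣ c)
    (hq : IsCoprime (q : ℤ) c) (hqc : ¬ (q : ℤ) ∣ c) (m : ℕ) :
    sym X (((q : ℤ) ^ (2 * p)) ^ m * a) c = sym X a c := by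
  induction m with
  | zero => simp
  | succ m ih =>
    have h1 : IsCoprime (((q : ℤ) ^ (2 * p)) ^ m * a) c := (hq.pow_left.pow_left).mul_left h
    have h2 : IsCoprime (((q : ℤ) ^ (2 * p)) ^ (m + 1) * a) c := (hq.pow_left.pow_left).mul_left h
    obtain ⟨g, hg, g0, g1⟩ := exists_mat h1 hc
    obtain ⟨g', hg', g0', g1'⟩ := exists_mat h2 hc
    rw [← ih, ← hX.toPar.eq_sym' hg g0 g1, ← hX.toPar.eq_sym' hg' g0' g1']
    exact hX.unit g g' hg hg' (by rwa [g1]) (by rw [g1, g1']) (by rw [g0, g0']; ring)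

/-- (Q1) -/
theorem Core.sym_base (hX : Core N q p X) {a : ℤ} (h : IsCoprime a ((N : ℤ) * q))
    (ha : (N : ℤ) ∣ a - 1) : sym X a ((N : ℤ) * q) = 0 := by
  obtain ⟨g, hg, g0, g1⟩ := exists_mat (N := N) h (Dvd.intro _ rfl)
  rw [← hX.toPar.eq_sym' hg g0 g1]
  exact hX.base g hg g1 (by rwa [g0])

end Core

end Fermat.Agent.S41.CSPL
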