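import Fermat.Agent.S41.CSPL.Defs

set_option autoImplicit false
set_option linter.unusedSimpArgs false
set_option linter.unusedVariables false

/-!
# S41 / CSPL : Step A
-/

namespace Fermat.Agent.S41.CSPL

open Matrix Matrix.SpecialLinearGroup CongruenceSubgroup
open scoped MatrixGroups

/-- arithmetic heart of step A. -/
theorem unit_exists {g0 Nz P k0 : ℤ} {W : ℕ} (hP : Prime P) (hg : g0 - 1 = P ^ W * k0)
    (hk0 : ¬ P ∣ k0) (hW : 1 ≤ W) (hN : Nz ∣ g0 - 1) (hNP : IsCoprime Nz P) (ϖ : ℕ)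
    (hϖN : IsCoprime (ϖ : ℤ) Nz) (hϖP : IsCoprime (ϖ : ℤ) P)
    (hfer : (ϖ : ℤ) ∣ g0 ^ (ϖ - 1) - 1) (hne : ¬ P ∣ (ϖ : ℤ) - 1) (hϖ1 : 1 ≤ ϖ) :
    ∃ k : ℤ, g0 ^ (ϖ - 1) = 1 + k * (Nz * P ^ W * ϖ) ∧ ¬ P ∣ k := by
  set S : ℤ := ∑ i ∈ Finset.range (ϖ - 1), g0 ^ i with hS
  have hSm : S * (g0 - 1) = g0 ^ (ϖ - 1) - 1 := geom_sum_mul g0 (ϖ - 1)
  have hPg : P ∣ g0 - 1 := by
    rw [hg]; exact Dvd.dvd.mul_right (dvd_pow_self P (by omega)) k0
  have hSn : P ∣ S - ((ϖ : ℤ) - 1) := by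
    have e : S - ((ϖ : ℤ) - 1) = ∑ i ∈ Finset.range (ϖ - 1), (g0 ^ i - 1) := by
      rw [Finset.sum_sub_distrib, Finset.sum_const, Finset.card_range, nsmul_eq_mul, mul_one,
        Nat.cast_sub hϖ1, Nat.cast_one]
    rw [e]
    refine Finset.dvd_sum fun i _ => ?_
    have := sub_dvd_pow_sub_pow g0 1 i
    rw [one_pow] at this
    exact hPg.trans this
  have hPS : ¬ P ∣ S := fun h => hne ((dvd_sub_right h).mp hSn)
  have d1 : Nz ∣ g0 ^ (ϖ - 1) - 1 := by rw [← hSm]; exact Dvd.dvd.mul_left hN S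
  have d2 : P ^ W ∣ g0 ^ (ϖ - 1) - 1 := by
    rw [← hSm, hg]; exact Dvd.dvd.mul_left (Dvd.intro k0 rfl) S
  have d3 : Nz * P ^ W ∣ g0 ^ (ϖ - 1) - 1 := (hNP.pow_right).mul_dvd d1 d2
  have d4 : Nz * P ^ W * ϖ ∣ g0 ^ (ϖ - 1) - 1 :=
    ((hϖN.symm).mul_left (hϖP.symm.pow_left)).mul_dvd d3 hfer
  obtain ⟨k, hk⟩ := d4
  refine ⟨k, by linear_combination hk, fun hPk => ?_⟩
  have hPW : P ^ W ≠ 0 := pow_ne_zero _ hP.ne_zero
  have e : k * Nz * ϖ = S * k0 := by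
    apply mul_left_cancel₀ hPW
    have : S * (P ^ W * k0) = Nz * P ^ W * ϖ * k := by rw [← hg, hSm, hk]
    linear_combination -this
  have : P ∣ S * k0 := by rw [← e]; exact Dvd.dvd.mul_right (Dvd.dvd.mul_right hPk _) _
  rcases hP.dvd_or_dvd this with h | h
  · exact hPS h
  · exact hk0 h

theorem isCoprime_add_mul_of_sq {a c e : ℤ} (h : IsCoprime a c) (he : e ∣ c) (hc : c ∣ e ^ 2)
    (m : ℤ) : IsCoprime (a + m * e) c := by
  have h1 : IsCoprime a e := h.of_isCoprime_of_dvd_right he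
  have h2 : IsCoprime (a + m * e) e := by
    exact (IsCoprime.add_mul_right_left_iff (x := a) (y := e) (z := m)).mpr h1
  exact (h2.pow_right (n := 2)).of_isCoprime_of_dvd_right hc

variable {N q p : ℕ} {F : Type*} [AddCommGroup F] {X : SL(2, ℤ) → F}

/-- special moduli. -/
theorem stepA_special (hX : Core N q p X) {e c P a k : ℤ} {m : ℕ} (hP : Prime P) (hc : c = P * e)
    (hNe : (N : ℤ) ∣ e) (hce : c ∣ e ^ 2) (hac : IsCoprime a c) (hqc : IsCoprime (q : ℤ) c)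
    (hqc' : ¬ (q : ℤ) ∣ c)
    (hu : ((q : ℤ) ^ (2 * p)) ^ m = 1 + k * e) (hk : ¬ P ∣ k) (x : ℤ) :
    sym X (a + x * e) c = sym X a c := by
  have hNc : (N : ℤ) ∣ c := by rw [hc]; exact Dvd.dvd.mul_left hNe P
  have hec : e ∣ c := by rw [hc]; exact Dvd.intro_left P rfl
  have key : ∀ j : ℕ, sym X (a + (j * k * a) * e) c = sym X a c := by
    intro j
    induction j with
    | zero => simp
    | succ j ih =>
      have hj : IsCoprime (a + (j * k * a) * e) c := isCoprime_add_mul_of_sq hac hec hce _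
      have h1 := hX.sym_unit hj hNc hqc hqc' m
      have hj' : IsCoprime (((q : ℤ) ^ (2 * p)) ^ m * (a + (j * k * a) * e)) c :=
        (hqc.pow_left.pow_left).mul_left hj
      rw [← ih, ← h1]
      apply hX.toPar.sym_congr hj' hNc
      obtain ⟨z, hz⟩ := hce
      refine ⟨- (j * k ^ 2 * a * z), ?_⟩
      rw [hu]
      push_cast
      linear_combination (-(j * k ^ 2 * a : ℤ)) * hz
  -- choose `j`
  have hPa : IsCoprime (k * a) P := by
    have h1 : IsCoprime k P := ((Prime.coprime_iff_not_dvd hP).mpr hk).symm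
    have h2 : IsCoprime a P := hac.of_isCoprime_of_dvd_right (by rw [hc]; exact Dvd.intro e rfl)
    exact h1.mul_left h2
  obtain ⟨s, t, hst⟩ := hPa
  have hP0 : P ≠ 0 := hP.ne_zero
  set j0 : ℤ := (x * s) % |P| with hj0
  have hj0nn : 0 ≤ j0 := Int.emod_nonneg _ (abs_ne_zero.mpr hP0)
  have hj0d : P ∣ x * s - j0 := by
    have : |P| ∣ x * s - j0 := Int.dvd_self_sub_emod
    exact (abs_dvd P _).mp this
  obtain ⟨j, hj⟩ := Int.eq_ofNat_of_zero_le hj0nn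
  rw [← key j]
  apply hX.toPar.sym_congr (isCoprime_add_mul_of_sq hac hec hce _) hNc
  obtain ⟨z, hz⟩ := hj0d
  rw [hj] at hz
  refine ⟨z * k * a + x * t, ?_⟩
  rw [hc]
  linear_combination (-(x * e)) * hst + (k * a * e) * hz

/-- transport. -/
theorem stepA_transport (hX : Par N X) {P a c₁ x t : ℤ} {J : ℕ}
    (h : IsCoprime a ((N : ℤ) * P ^ (J + 2) * c₁)) :
    sym X (a + x * ((N : ℤ) * P ^ (J + 1) * (c₁ + t * a))) ((N : ℤ) * P ^ (J + 2) * (c₁ + t * a)) =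
      sym X (a + x * ((N : ℤ) * P ^ (J + 1) * c₁)) ((N : ℤ) * P ^ (J + 2) * c₁) := by
  let U : SL(2, ℤ) := mk (1 + x * N * P ^ (J + 1) * t) (- (x ^ 2 * N * P ^ J * t))
    (N * P ^ (J + 2) * t) (1 - x * N * P ^ (J + 1) * t) (by ring)
  have hU : U ∈ Gamma0 N := mem_G0.mpr (by
    simp only [U, mk_10]; exact ⟨P ^ (J + 2) * t, by ring⟩)
  have hU0 : X U = 0 := hX.unip U hU (by simp only [U, mk_00, mk_11]; ring)
  have hco : IsCoprime (a + x * ((N : ℤ) * P ^ (J + 1) * c₁)) ((N : ℤ) * P ^ (J + 2) * c₁) := by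
    apply isCoprime_add_mul_of_sq h
    · exact ⟨P, by ring⟩
    · exact ⟨N * P ^ J * c₁, by ring⟩
  have := hX.sym_mul hU hU0 hco (⟨P ^ (J + 2) * c₁, by ring⟩ : (N : ℤ) ∣ (N : ℤ) * P ^ (J + 2) * c₁)
  rw [← this]
  simp only [U, mk_00, mk_01, mk_10, mk_11]
  congr 1 <;> ring

/-- Dirichlet + CRT: a large prime `≡ c mod a`, `≡ 2 mod P`. -/
theorem exists_prime_stepA {a c : ℤ} {π : ℕ} (hπ : π.Prime) (hπ2 : π ≠ 2) (hac : IsCoprime a c)
    (haπ : IsCoprime a (π : ℤ)) (B : ℕ) :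
    ∃ ϖ : ℕ, B < ϖ ∧ ϖ.Prime ∧ (∃ t : ℤ, (ϖ : ℤ) = c + t * a) ∧ (π : ℤ) ∣ (ϖ : ℤ) - 2 := by
  have hPz : Prime (π : ℤ) := Nat.prime_iff_prime_int.mp hπ
  have ha0 : a ≠ 0 := by
    rintro rfl
    exact hPz.not_isUnit (isCoprime_zero_left.mp haπ)
  obtain ⟨s, t, hst⟩ := haπ
  set r : ℤ := c * (t * π) + 2 * (s * a) with hr
  have hra : IsCoprime r a := by
    have e : r = c + (2 * s - c * s) * a := by rw [hr]; linear_combination c * hst
    rw [e]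
    exact (IsCoprime.add_mul_right_left_iff (x := c) (y := a) (z := 2 * s - c * s)).mpr hac.symm
  have h2π : IsCoprime (2 : ℤ) (π : ℤ) := by
    refine ((Prime.coprime_iff_not_dvd hPz).mpr fun h => ?_).symm
    have h' : π ∣ 2 := by exact_mod_cast h
    exact hπ2 ((Nat.prime_dvd_prime_iff_eq hπ Nat.prime_two).mp h')
  have hrπ : IsCoprime r (π : ℤ) := by
    have e : r = 2 + (c * t - 2 * t) * π := by rw [hr]; linear_combination 2 * hst
    rw [e]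
    exact (IsCoprime.add_mul_right_left_iff (x := 2) (y := (π : ℤ)) (z := c * t - 2 * t)).mpr h2π
  set m : ℕ := a.natAbs * π with hm
  have hm0 : m ≠ 0 := Nat.mul_ne_zero (Int.natAbs_ne_zero.mpr ha0) hπ.ne_zero
  have : NeZero m := ⟨hm0⟩
  have hmz : (m : ℤ) = |a| * π := by rw [hm]; push_cast; rw [Int.abs_eq_natAbs]
  have hcop : IsCoprime (m : ℤ) r := by
    rw [hmz]
    refine IsCoprime.mul_left ?_ hrπ.symm
    rcases abs_choice a with h | h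
    · rw [h]; exact hra.symm
    · rw [h]; exact hra.symm.neg_left
  have hunit : IsUnit ((r : ℤ) : ZMod m) := (ZMod.coe_int_isUnit_iff_isCoprime r m).mpr hcop
  obtain ⟨ϖ, hgt, hϖp, hϖe⟩ := Nat.forall_exists_prime_gt_and_eq_mod hunit B
  have hd : (m : ℤ) ∣ (ϖ : ℤ) - r := by
    have : ((r : ℤ) : ZMod m) = (((ϖ : ℕ) : ℤ) : ZMod m) := by rw [Int.cast_natCast, hϖe]
    exact (ZMod.intCast_eq_intCast_iff_dvd_sub r ϖ m).mp this
  have hda : a ∣ (ϖ : ℤ) - r := by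
    refine Dvd.dvd.trans ?_ hd
    rw [hmz]; exact Dvd.dvd.mul_right ((dvd_abs a a).mpr dvd_rfl) _
  have hdπ : (π : ℤ) ∣ (ϖ : ℤ) - r := by
    refine Dvd.dvd.trans ?_ hd
    rw [hmz]; exact Dvd.intro_left _ rfl
  refine ⟨ϖ, hgt, hϖp, ?_, ?_⟩
  · obtain ⟨z, hz⟩ := hda
    refine ⟨z + (2 * s - c * s), ?_⟩
    have e : r = c + (2 * s - c * s) * a := by rw [hr]; linear_combination c * hst
    linear_combination hz + e
  · obtain ⟨z, hz⟩ := hdπ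
    refine ⟨z + (c * t - 2 * t), ?_⟩
    have e : r = 2 + (c * t - 2 * t) * π := by rw [hr]; linear_combination 2 * hst
    linear_combination hz + e

/-- Step A: `s(a + x c/π, c) = s(a, c)` as soon as `N π^(J+2) ∣ c`. -/
theorem stepA [NeZero N] (hq : q.Prime) (hqN : ¬ q ∣ N) (hp : p.Prime) (hX : Core N q p X)
    {π : ℕ} (hπ : π.Prime) (hπ2 : π ≠ 2) (hπN : ¬ π ∣ N) (hπq : π ≠ q) :
    ∃ J : ℕ, ∀ a c x : ℤ, IsCoprime a ((N : ℤ) * (π : ℤ) ^ (J + 2) * c) →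
      sym X (a + x * ((N : ℤ) * (π : ℤ) ^ (J + 1) * c)) ((N : ℤ) * (π : ℤ) ^ (J + 2) * c) =
        sym X a ((N : ℤ) * (π : ℤ) ^ (J + 2) * c) := by
  have hPz : Prime (π : ℤ) := Nat.prime_iff_prime_int.mp hπ
  have hqz : Prime (q : ℤ) := Nat.prime_iff_prime_int.mp hq
  have hN0 : 0 < N := Nat.pos_of_ne_zero (NeZero.ne N)
  obtain ⟨Q, hQ⟩ : ∃ Q : ℤ, Q = (q : ℤ) ^ (2 * p) := ⟨_, rfl⟩
  set E : ℕ := Nat.totient N * (π - 1) with hE
  have hE0 : 0 < E := Nat.mul_pos (Nat.totient_pos.mpr hN0) (by have := hπ.two_le; omega)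
  obtain ⟨g0, hg0⟩ : ∃ g0 : ℤ, g0 = Q ^ E := ⟨_, rfl⟩
  have hqπ : IsCoprime (q : ℤ) (π : ℤ) := by
    refine (Prime.coprime_iff_not_dvd hqz).mpr fun h => ?_
    have h' : q ∣ π := by exact_mod_cast h
    exact hπq ((Nat.prime_dvd_prime_iff_eq hq hπ).mp h').symm
  have hqNz : IsCoprime (q : ℤ) (N : ℤ) :=
    (Prime.coprime_iff_not_dvd hqz).mpr fun h => hqN (by exact_mod_cast h)
  have hπNz : IsCoprime (π : ℤ) (N : ℤ) :=
    (Prime.coprime_iff_not_dvd hPz).mpr fun h => hπN (by exact_mod_cast h)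
  -- `π ∣ g0 - 1`
  have d1 : (π : ℤ) ∣ g0 - 1 := by
    have h1 : Q ^ (π - 1) ≡ 1 [ZMOD π] :=
      Int.ModEq.pow_card_sub_one_eq_one hπ (by rw [hQ]; exact hqπ.pow_left)
    have h2 : (π : ℤ) ∣ Q ^ (π - 1) - 1 := (Int.modEq_iff_dvd.mp h1.symm)
    have h3 := sub_dvd_pow_sub_pow (Q ^ (π - 1)) 1 (Nat.totient N)
    rw [one_pow, ← pow_mul, mul_comm (π - 1) (Nat.totient N), ← hE, ← hg0] at h3
    exact h2.trans h3
  -- `N ∣ g0 - 1`
  have d2 : (N : ℤ) ∣ g0 - 1 := by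
    have hc : Nat.Coprime (q ^ (2 * p)) N :=
      Nat.Coprime.pow_left _ ((Nat.Prime.coprime_iff_not_dvd hq).mpr hqN)
    have h1 := Nat.ModEq.pow_totient hc
    have h2 : (N : ℤ) ∣ Q ^ (Nat.totient N) - 1 := by
      have := (Nat.modEq_iff_dvd.mp h1.symm)
      push_cast at this
      rw [hQ]
      exact this
    have h3 := sub_dvd_pow_sub_pow (Q ^ (Nat.totient N)) 1 (π - 1)
    rw [one_pow, ← pow_mul, ← hE, ← hg0] at h3
    exact h2.trans h3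
  have hne : g0 - 1 ≠ 0 := by
    have h1 : (1 : ℤ) < Q := by
      have : (1 : ℤ) < (q : ℤ) := by exact_mod_cast hq.one_lt
      rw [hQ]
      exact one_lt_pow₀ this (by have := hp.pos; omega)
    have h2 : (1 : ℤ) < g0 := by rw [hg0]; exact one_lt_pow₀ h1 hE0.ne'
    omega
  have hfin : FiniteMultiplicity (π : ℤ) (g0 - 1) := by
    rw [Int.finiteMultiplicity_iff]
    refine ⟨?_, hne⟩
    simpa using hπ.one_lt.ne'
  obtain ⟨k0, hk0, hk0'⟩ := hfin.exists_eq_pow_mul_and_not_dvd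
  set W : ℕ := multiplicity (π : ℤ) (g0 - 1) with hW
  have hW1 : 1 ≤ W := by
    rcases Nat.eq_zero_or_pos W with h | h
    · rw [h, pow_zero, one_mul] at hk0
      exact absurd (hk0 ▸ d1) hk0'
    · exact h
  obtain ⟨J, hJ⟩ : ∃ J, W = J + 1 := ⟨W - 1, by omega⟩
  refine ⟨J, fun a c x hac => ?_⟩
  have haπ : IsCoprime a (π : ℤ) :=
    hac.of_isCoprime_of_dvd_right ⟨(N : ℤ) * (π : ℤ) ^ (J + 1) * c, by ring⟩
  have hac' : IsCoprime a c := hac.of_isCoprime_of_dvd_right (Dvd.intro_left _ rfl)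
  have haN : IsCoprime a ((N : ℤ) * (π : ℤ) ^ (J + 2)) :=
    hac.of_isCoprime_of_dvd_right (Dvd.intro _ rfl)
  obtain ⟨ϖ, hgt, hϖp, ⟨t, ht⟩, hϖ2⟩ := exists_prime_stepA hπ hπ2 hac' haπ (N + q + π)
  have hϖz : Prime (ϖ : ℤ) := Nat.prime_iff_prime_int.mp hϖp
  have hNc : (N : ℤ) ∣ (N : ℤ) * (π : ℤ) ^ (J + 2) * c := ⟨(π : ℤ) ^ (J + 2) * c, by ring⟩
  rw [← stepA_transport hX.toPar (x := x) (t := t) hac,
    ← hX.toPar.sym_congr' (c' := (N : ℤ) * (π : ℤ) ^ (J + 2) * (c + t * a)) hac hNc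
      ⟨(π : ℤ) ^ (J + 2) * t, by ring⟩, ← ht]
  -- coprimality of `ϖ`
  have hϖN : IsCoprime (ϖ : ℤ) (N : ℤ) := by
    refine (Prime.coprime_iff_not_dvd hϖz).mpr fun h => ?_
    have h' : ϖ ∣ N := by exact_mod_cast h
    have := Nat.le_of_dvd hN0 h'
    omega
  have hϖπ : IsCoprime (ϖ : ℤ) (π : ℤ) := by
    refine (Prime.coprime_iff_not_dvd hϖz).mpr fun h => ?_
    have h' : ϖ ∣ π := by exact_mod_cast h
    have := Nat.le_of_dvd hπ.pos h'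
    omega
  have hϖq : IsCoprime (ϖ : ℤ) (q : ℤ) := by
    refine (Prime.coprime_iff_not_dvd hϖz).mpr fun h => ?_
    have h' : ϖ ∣ q := by exact_mod_cast h
    have := Nat.le_of_dvd hq.pos h'
    omega
  have hfer : (ϖ : ℤ) ∣ g0 ^ (ϖ - 1) - 1 := by
    have h1 : g0 ^ (ϖ - 1) ≡ 1 [ZMOD ϖ] :=
      Int.ModEq.pow_card_sub_one_eq_one hϖp (by rw [hg0, hQ]; exact hϖq.symm.pow_left.pow_left)
    exact Int.modEq_iff_dvd.mp h1.symm
  have hne1 : ¬ (π : ℤ) ∣ (ϖ : ℤ) - 1 := by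
    intro h
    have : (π : ℤ) ∣ 1 := by
      have := dvd_sub h hϖ2
      have e : (ϖ : ℤ) - 1 - ((ϖ : ℤ) - 2) = 1 := by ring
      rwa [e] at this
    exact hPz.not_isUnit (isUnit_of_dvd_one this)
  obtain ⟨k, hk, hk'⟩ := unit_exists hPz hk0 hk0' hW1 d2 hπNz.symm ϖ hϖN hϖπ hfer hne1 hϖp.one_le
  have haϖ : IsCoprime a (ϖ : ℤ) := by
    rw [ht]
    exact ((IsCoprime.add_mul_right_left_iff (x := c) (y := a) (z := t)).mpr hac'.symm).symm
  have hqcc : IsCoprime (q : ℤ) ((N : ℤ) * (π : ℤ) ^ (J + 2) * ϖ) :=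
    (hqNz.mul_right hqπ.pow_right).mul_right hϖq.symm
  refine stepA_special hX (e := (N : ℤ) * (π : ℤ) ^ (J + 1) * ϖ) (P := (π : ℤ)) (k := k)
    (m := E * (ϖ - 1)) hPz (by ring) ⟨(π : ℤ) ^ (J + 1) * ϖ, by ring⟩
    ⟨(N : ℤ) * (π : ℤ) ^ J * ϖ, by ring⟩ (haN.mul_right haϖ) hqcc
    (fun h => hqz.not_isUnit (hqcc.isUnit_of_dvd' dvd_rfl h)) ?_ hk' x
  rw [pow_mul, ← hJ, ← hQ, ← hg0]
  exact hk

end Fermat.Agent.S41.CSPL
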