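import Fermat.Agent.S41.CSPL.StepA

set_option autoImplicit false

/-!
# S41 / CSP : Step B
-/

namespace Fermat.Agent.S41.CSPL

open Matrix Matrix.SpecialLinearGroup CongruenceSubgroup
open scoped MatrixGroups

variable {N q p : ℕ} {F : Type*} [AddCommGroup F] {X : SL(2, ℤ) → F}

/-! ### the relation `Rel` is multiplicative -/

theorem Rel.mul {m : ℤ} {g g' k k' : SL(2, ℤ)} (h₁ : Rel m g g') (h₂ : Rel m k k') :
    Rel m (g * k) (g' * k') := by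
  obtain ⟨a1, a2, a3, a4⟩ := h₁
  obtain ⟨b1, b2, b3, b4⟩ := h₂
  refine ⟨?_, ?_, ?_, ?_⟩
  · rw [mul_00, mul_00, a1, a2, b1, b3]; ring
  · rw [mul_01, mul_01, a1, a2, b2, b4]; ring
  · rw [mul_10, mul_10, a3, a4, b1, b3]; ring
  · rw [mul_11, mul_11, a3, a4, b2, b4]; ring

theorem Rel.one (m : ℤ) : Rel m 1 1 := by
  refine ⟨rfl, ?_, ?_, rfl⟩ <;> simp

theorem Rel.pow {m : ℤ} {g g' : SL(2, ℤ)} (h : Rel m g g') (k : ℕ) : Rel m (g ^ k) (g' ^ k) := by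
  induction k with
  | zero => simpa using Rel.one m
  | succ k ih => rw [pow_succ, pow_succ]; exact ih.mul h

theorem rel_E12 (m x : ℤ) : Rel m (E12 x) (E12 (m * x)) := ⟨rfl, rfl, by simp, rfl⟩

theorem rel_E21 (m y : ℤ) : Rel m (E21 (m * y)) (E21 y) := ⟨rfl, by simp, rfl, rfl⟩

/-! ### auxiliary arithmetic -/

theorem isCoprime_shift {a x w E : ℤ} (h : IsCoprime a (w * E)) (hw : w ∣ E) :
    IsCoprime (a + x * E) (w * E) := by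
  have h1 : IsCoprime (a + x * E) E := (h.of_mul_right_right).add_mul_right_left x
  exact (h1.of_isCoprime_of_dvd_right hw).mul_right h1

/-- powers of a matrix which is diagonal modulo `M`. -/
theorem diag_pow {M : ℤ} {g : SL(2, ℤ)} (h01 : M ∣ g 0 1) (h10 : M ∣ g 1 0) (k : ℕ) :
    M ∣ (g ^ k) 0 1 ∧ M ∣ (g ^ k) 1 0 ∧ M ∣ (g ^ k) 0 0 - (g 0 0) ^ k ∧
      M ∣ (g ^ k) 1 1 - (g 1 1) ^ k := by
  induction k with
  | zero => simp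
  | succ k ih =>
    obtain ⟨i1, i2, i3, i4⟩ := ih
    rw [pow_succ]
    refine ⟨?_, ?_, ?_, ?_⟩
    · rw [mul_01]
      exact dvd_add (Dvd.dvd.mul_left h01 _) (Dvd.dvd.mul_right i1 _)
    · rw [mul_10]
      exact dvd_add (Dvd.dvd.mul_right i2 _) (Dvd.dvd.mul_left h10 _)
    · rw [mul_00]
      have : (g ^ k) 0 0 * g 0 0 + (g ^ k) 0 1 * g 1 0 - g 0 0 ^ (k + 1) =
          ((g ^ k) 0 0 - g 0 0 ^ k) * g 0 0 + (g ^ k) 0 1 * g 1 0 := by ring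
      rw [this]
      exact dvd_add (Dvd.dvd.mul_right i3 _) (Dvd.dvd.mul_right i1 _)
    · rw [mul_11]
      have : (g ^ k) 1 0 * g 0 1 + (g ^ k) 1 1 * g 1 1 - g 1 1 ^ (k + 1) =
          (g ^ k) 1 0 * g 0 1 + ((g ^ k) 1 1 - g 1 1 ^ k) * g 1 1 := by ring
      rw [this]
      exact dvd_add (Dvd.dvd.mul_right i2 _) (Dvd.dvd.mul_right i4 _)

theorem dvd_pow_totient_sub_one {M : ℕ} {a : ℤ} (h : IsCoprime a (M : ℤ)) :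
    (M : ℤ) ∣ a ^ (Nat.totient M) - 1 := by
  obtain ⟨u, v, huv⟩ := h
  have h1 : ((a : ℤ) : ZMod M) * ((u : ℤ) : ZMod M) = 1 := by
    have := congrArg (fun z : ℤ => (z : ZMod M)) huv
    simp only [Int.cast_add, Int.cast_mul, Int.cast_natCast, ZMod.natCast_self, mul_zero,
      add_zero, Int.cast_one] at this
    rw [mul_comm]; exact this
  have h2 := ZMod.pow_totient (Units.mkOfMulEqOne _ _ h1)
  have h3 := congrArg (fun z : (ZMod M)ˣ => (z : ZMod M)) h2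
  simp only [Units.val_pow_eq_pow_val, Units.val_mkOfMulEqOne, Units.val_one] at h3
  rw [← ZMod.intCast_zmod_eq_zero_iff_dvd]
  push_cast
  rw [h3, sub_self]

theorem eq_zero_of_smul {v : F} {k p : ℕ} (hk : k • v = 0) (hp : p • v = 0)
    (hkp : Nat.Coprime k p) : v = 0 := by
  obtain ⟨a, b, hab⟩ := Nat.isCoprime_iff_coprime.mpr hkp
  have h1 : (a * (k : ℤ) + b * (p : ℤ)) • v = 0 := by
    rw [add_smul, mul_smul, mul_smul, natCast_zsmul, natCast_zsmul, hk, hp, smul_zero, smul_zero,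
      add_zero]
  rwa [hab, one_smul] at h1

/-! ### B1 : the deep case -/

/-- the conclusion of Step A for the prime `π` and the exponent `J`. -/
def AFor (N : ℕ) {F : Type*} [AddCommGroup F] (X : SL(2, ℤ) → F) (π J : ℕ) : Prop :=
  ∀ a c x : ℤ, IsCoprime a ((N : ℤ) * (π : ℤ) ^ (J + 2) * c) →
    sym X (a + x * ((N : ℤ) * (π : ℤ) ^ (J + 1) * c)) ((N : ℤ) * (π : ℤ) ^ (J + 2) * c) =
      sym X a ((N : ℤ) * (π : ℤ) ^ (J + 2) * c)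

theorem stepB_deep (hX : Par N X) {π₁ π₂ J₁ J₂ : ℕ} (hA₁ : AFor N X π₁ J₁) (hA₂ : AFor N X π₂ J₂)
    (hcop : IsCoprime (π₁ : ℤ) (π₂ : ℤ)) (hN₁ : IsCoprime (N : ℤ) (π₁ : ℤ))
    (hN₂ : IsCoprime (N : ℤ) (π₂ : ℤ)) (h₁0 : (π₁ : ℤ) ≠ 0) (h₂0 : (π₂ : ℤ) ≠ 0)
    {x₁ : ℤ} (hn : (π₁ : ℤ) * π₂ = 1 + N * x₁)
    {g g' : SL(2, ℤ)} (hg : g ∈ Gamma0 N) (hg' : g' ∈ Gamma0 N)
    (hrel : Rel (((π₁ : ℤ) * π₂) ^ 2) g g')
    (hb : (π₁ : ℤ) ^ (J₁ + 2) * (π₂ : ℤ) ^ (J₂ + 2) ∣ g 0 1)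
    (hc : (π₁ : ℤ) ^ (J₁ + 2) * (π₂ : ℤ) ^ (J₂ + 2) ∣ g 1 0)
    (hd : (π₁ : ℤ) ^ (J₁ + 2) * (π₂ : ℤ) ^ (J₂ + 2) ∣ g 1 1 - g 0 0) : X g' = X g := by
  obtain ⟨r1, r2, r3, r4⟩ := hrel
  obtain ⟨n, hndef⟩ : ∃ n : ℤ, n = (π₁ : ℤ) * π₂ := ⟨_, rfl⟩
  rw [← hndef] at r2 r3 hn
  have hn0 : n ≠ 0 := by rw [hndef]; exact mul_ne_zero h₁0 h₂0
  obtain ⟨M0, hM0⟩ : ∃ M0 : ℤ, M0 = (π₁ : ℤ) ^ (J₁ + 2) * (π₂ : ℤ) ^ (J₂ + 2) := ⟨_, rfl⟩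
  rw [← hM0] at hb hc hd
  have hdet := det_eq g
  generalize ha' : g 0 0 = a at *
  generalize hb' : g 0 1 = b at *
  generalize hd' : g 1 1 = d at *
  generalize hc' : g' 1 0 = c' at *
  -- `d = a + n e`
  obtain ⟨e0, he0⟩ := hd
  obtain ⟨e, he⟩ : ∃ e : ℤ, e = (π₁ : ℤ) ^ (J₁ + 1) * (π₂ : ℤ) ^ (J₂ + 1) * e0 := ⟨_, rfl⟩
  have hde : d = a + n * e := by
    have : M0 * e0 = n * e := by rw [hM0, he, hndef]; ring
    linear_combination he0 + this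
  obtain ⟨c1', hc1'⟩ : ∃ c1' : ℤ, c1' = c' + N * e - N ^ 2 * b := ⟨_, rfl⟩
  obtain ⟨c1, hc1⟩ : ∃ c1 : ℤ, c1 = n ^ 2 * c1' := ⟨_, rfl⟩
  have hNg : (N : ℤ) ∣ n ^ 2 * c' := by rw [← r3]; exact mem_G0.mp hg
  -- divisibility of `c1`
  have hNc1 : (N : ℤ) ∣ c1 := by
    have : c1 = n ^ 2 * c' + N * (n ^ 2 * e - n ^ 2 * N * b) := by rw [hc1, hc1']; ring
    rw [this]
    exact dvd_add hNg (Dvd.intro _ rfl)
  have hMc1 : M0 ∣ c1 := by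
    have : c1 = n ^ 2 * c' + (n * N) * (d - a) - (n * N) ^ 2 * b := by
      rw [hc1, hc1', hde]; ring
    rw [this, ← r3]
    exact dvd_sub (dvd_add hc (Dvd.dvd.mul_left ⟨e0, he0⟩ _)) (Dvd.dvd.mul_left hb _)
  have hNM : IsCoprime (N : ℤ) M0 := by
    rw [hM0]; exact (hN₁.pow_right).mul_right (hN₂.pow_right)
  obtain ⟨γ, hγ⟩ := hNM.mul_dvd hNc1 hMc1
  -- the conjugate `g1`
  have hE : E21 (-(n * N)) ∈ Gamma0 N := E21_mem (Dvd.dvd.neg_right (Dvd.intro_left _ rfl))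
  have hg1 : E21 (-(n * N)) * g * (E21 (-(n * N)))⁻¹ ∈ Gamma0 N :=
    mul_mem (mul_mem hE hg) (inv_mem hE)
  have k0 : (E21 (-(n * N)) * g * (E21 (-(n * N)))⁻¹) 0 0 = a + b * (n * N) := by
    rw [mul_00, mul_00, mul_01, inv_00, inv_10]
    simp only [E21_00, E21_01, E21_10, E21_11, ha', hb']
    ring
  have k1 : (E21 (-(n * N)) * g * (E21 (-(n * N)))⁻¹) 1 0 = c1 := by
    rw [mul_10, mul_10, mul_11, inv_00, inv_10]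
    simp only [E21_00, E21_10, E21_11, ha', hb', hd', r3]
    rw [hc1, hc1', hde]; ring
  have e1 : X g = sym X (a + b * (n * N)) c1 := by
    rw [← hX.conj hE hg]
    exact hX.eq_sym' hg1 k0 k1
  have hcol : IsCoprime (a + b * (n * N)) c1 := by
    have := isCoprime_col (E21 (-(n * N)) * g * (E21 (-(n * N)))⁻¹)
    rwa [k0, k1] at this
  -- the matrix `g2`
  have hdet2 : (a + b * (n * N) - x₁ * n * c1') * (d - n * N * b + x₁ * n * c1') -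
      (b - x₁ * (e - 2 * N * b) - x₁ ^ 2 * c1') * c1 = 1 := by
    rw [r3] at hdet
    rw [hc1, hc1', hde]
    rw [hde] at hdet
    linear_combination hdet
  obtain ⟨g2, hg2def⟩ : ∃ g2 : SL(2, ℤ), g2 = mk (a + b * (n * N) - x₁ * n * c1')
    (b - x₁ * (e - 2 * N * b) - x₁ ^ 2 * c1') c1 (d - n * N * b + x₁ * n * c1') hdet2 := ⟨_, rfl⟩
  have hg2 : g2 ∈ Gamma0 N := mem_G0.mpr (by rw [hg2def]; simpa using hNc1)
  have e2 : X g2 = sym X (a + b * (n * N) - x₁ * n * c1') c1 :=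
    hX.eq_sym' hg2 (by rw [hg2def]; rfl) (by rw [hg2def]; rfl)
  -- `g' = Q g2 Q⁻¹`
  have hQdet : n * 1 - x₁ * N = 1 := by linear_combination hn
  have hQ : mk n x₁ N 1 hQdet ∈ Gamma0 N := mem_G0.mpr (by simp)
  have e3 : g' = mk n x₁ N 1 hQdet * g2 * (mk n x₁ N 1 hQdet)⁻¹ := by
    rw [eq_mul_inv_iff_mul_eq]
    apply ext4
    · rw [mul_00, mul_00]
      simp only [r1, r2, hg2def, mk_00, mk_01, mk_10, mk_11]
      rw [hc1]; ring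
    · rw [mul_01, mul_01]
      simp only [r1, r2, hg2def, mk_00, mk_01, mk_10, mk_11]
      rw [hc1', hde]
      linear_combination (n * b) * hn
    · rw [mul_10, mul_10]
      simp only [hc', r4, hg2def, mk_00, mk_01, mk_10, mk_11]
      rw [hc1, hc1', hde]
      linear_combination (-(n * (c' + N * e - N ^ 2 * b))) * hn
    · rw [mul_11, mul_11]
      simp only [hc', r4, hg2def, mk_00, mk_01, mk_10, mk_11]
      rw [hc1', hde]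
      linear_combination (N * b - x₁ * (c' + N * e - N ^ 2 * b)) * hn
  have e4 : X g' = X g2 := by rw [e3]; exact hX.conj hQ hg2
  -- Step A twice
  obtain ⟨u, v, huv⟩ := hcop
  have hk1 : c1 = (N : ℤ) * (π₁ : ℤ) ^ (J₁ + 2) * ((π₂ : ℤ) ^ (J₂ + 2) * γ) := by
    rw [hγ, hM0]; ring
  have hk2 : c1 = (N : ℤ) * (π₂ : ℤ) ^ (J₂ + 2) * ((π₁ : ℤ) ^ (J₁ + 2) * γ) := by
    rw [hγ, hM0]; ring
  have hnc : n * c1' = (N : ℤ) * (π₁ : ℤ) ^ (J₁ + 1) * (π₂ : ℤ) ^ (J₂ + 1) * γ := by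
    apply mul_left_cancel₀ hn0
    have : n * (n * c1') = c1 := by rw [hc1]; ring
    rw [this, hγ, hM0, hndef]; ring
  have s1 := hA₁ (a + b * (n * N)) ((π₂ : ℤ) ^ (J₂ + 2) * γ) (-x₁ * v) (by rw [← hk1]; exact hcol)
  have hcol2 : IsCoprime (a + b * (n * N) +
      (-x₁ * v) * ((N : ℤ) * (π₁ : ℤ) ^ (J₁ + 1) * ((π₂ : ℤ) ^ (J₂ + 2) * γ))) c1 := by
    have hk3 : c1 = (π₁ : ℤ) * ((N : ℤ) * (π₁ : ℤ) ^ (J₁ + 1) * ((π₂ : ℤ) ^ (J₂ + 2) * γ)) := by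
      rw [hk1]; ring
    rw [hk3]
    apply isCoprime_shift (by rw [← hk3]; exact hcol)
    exact ⟨(N : ℤ) * (π₁ : ℤ) ^ J₁ * ((π₂ : ℤ) ^ (J₂ + 2) * γ), by ring⟩
  have s2 := hA₂ _ ((π₁ : ℤ) ^ (J₁ + 2) * γ) (-x₁ * u) (by rw [← hk2]; exact hcol2)
  rw [← hk1] at s1
  rw [← hk2] at s2
  rw [e4, e2, e1, ← s1, ← s2]
  congr 1
  linear_combination (-x₁) * hnc +
    (x₁ * ((N : ℤ) * (π₁ : ℤ) ^ (J₁ + 1) * (π₂ : ℤ) ^ (J₂ + 1) * γ)) * huv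

/-! ### B2 : the general case -/

theorem not_dvd_totient {p π₁ π₂ : ℕ} (hp : p.Prime) (h₁ : π₁.Prime) (h₂ : π₂.Prime) (h12 : π₁ ≠ π₂)
    (h₁p : ¬ p ∣ π₁ * (π₁ - 1)) (h₂p : ¬ p ∣ π₂ * (π₂ - 1)) (J₁ J₂ : ℕ) :
    Nat.Coprime (Nat.totient (π₁ ^ (J₁ + 2) * π₂ ^ (J₂ + 2))) p := by
  have hc : Nat.Coprime (π₁ ^ (J₁ + 2)) (π₂ ^ (J₂ + 2)) :=
    Nat.Coprime.pow _ _ ((Nat.coprime_primes h₁ h₂).mpr h12)
  rw [Nat.totient_mul hc, Nat.totient_prime_pow_succ h₁, Nat.totient_prime_pow_succ h₂]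
  rw [Nat.coprime_comm, Nat.Prime.coprime_iff_not_dvd hp]
  intro h
  rcases (Nat.Prime.dvd_mul hp).mp h with h | h
  · rcases (Nat.Prime.dvd_mul hp).mp h with h | h
    · exact h₁p (Dvd.dvd.mul_right (hp.dvd_of_dvd_pow h) _)
    · exact h₁p (Dvd.dvd.mul_left h _)
  · rcases (Nat.Prime.dvd_mul hp).mp h with h | h
    · exact h₂p (Dvd.dvd.mul_right (hp.dvd_of_dvd_pow h) _)
    · exact h₂p (Dvd.dvd.mul_left h _)

/-- Step B: `X (t h t⁻¹) = X h`, `t = diag(n, 1/n)`, `n = π₁ π₂ ≡ 1 mod N`. -/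
theorem stepB [NeZero N] (hq : q.Prime) (hqN : ¬ q ∣ N) (hp : p.Prime) (hX : Core N q p X)
    {π₁ π₂ : ℕ} (h₁ : π₁.Prime) (h₂ : π₂.Prime) (h12 : π₁ ≠ π₂)
    (h₁2 : π₁ ≠ 2) (h₂2 : π₂ ≠ 2) (h₁N : ¬ π₁ ∣ N) (h₂N : ¬ π₂ ∣ N) (h₁q : π₁ ≠ q) (h₂q : π₂ ≠ q)
    (h₁p : ¬ p ∣ π₁ * (π₁ - 1)) (h₂p : ¬ p ∣ π₂ * (π₂ - 1))
    (hn : (N : ℤ) ∣ (π₁ : ℤ) * π₂ - 1)
    {h h' : SL(2, ℤ)} (hh : h ∈ Gamma0 N) (hh' : h' ∈ Gamma0 N)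
    (hrel : Rel (((π₁ : ℤ) * π₂) ^ 2) h h') : X h' = X h := by
  obtain ⟨J₁, hA₁⟩ := stepA hq hqN hp hX h₁ h₁2 h₁N h₁q
  obtain ⟨J₂, hA₂⟩ := stepA hq hqN hp hX h₂ h₂2 h₂N h₂q
  have hP := hX.toPar
  obtain ⟨x₁, hx₁⟩ := hn
  have hn' : (π₁ : ℤ) * π₂ = 1 + N * x₁ := by linear_combination hx₁
  have hcop : IsCoprime (π₁ : ℤ) (π₂ : ℤ) :=
    Nat.isCoprime_iff_coprime.mpr ((Nat.coprime_primes h₁ h₂).mpr h12)
  have hN₁ : IsCoprime (N : ℤ) (π₁ : ℤ) :=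
    Nat.isCoprime_iff_coprime.mpr (Nat.Coprime.symm ((Nat.Prime.coprime_iff_not_dvd h₁).mpr h₁N))
  have hN₂ : IsCoprime (N : ℤ) (π₂ : ℤ) :=
    Nat.isCoprime_iff_coprime.mpr (Nat.Coprime.symm ((Nat.Prime.coprime_iff_not_dvd h₂).mpr h₂N))
  have h₁0 : (π₁ : ℤ) ≠ 0 := by exact_mod_cast h₁.ne_zero
  have h₂0 : (π₂ : ℤ) ≠ 0 := by exact_mod_cast h₂.ne_zero
  obtain ⟨m, hm⟩ : ∃ m : ℤ, m = ((π₁ : ℤ) * π₂) ^ 2 := ⟨_, rfl⟩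
  obtain ⟨M0, hM0⟩ : ∃ M0 : ℤ, M0 = (π₁ : ℤ) ^ (J₁ + 2) * (π₂ : ℤ) ^ (J₂ + 2) := ⟨_, rfl⟩
  have hM0' : M0 = ((π₁ ^ (J₁ + 2) * π₂ ^ (J₂ + 2) : ℕ) : ℤ) := by rw [hM0]; push_cast; rfl
  -- `a` is a unit modulo `M0`
  have haM : IsCoprime (h 0 0) M0 := by
    have h0 := isCoprime_col h
    rw [hrel.2.2.1] at h0
    have h1 : IsCoprime (h 0 0) ((π₁ : ℤ) * π₂) :=
      IsCoprime.of_mul_right_left (by rw [← sq]; exact h0.of_mul_right_left)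
    rw [hM0]
    exact (h1.of_mul_right_left.pow_right).mul_right (h1.of_mul_right_right.pow_right)
  have hNM : IsCoprime (N : ℤ) M0 := by
    rw [hM0]; exact (hN₁.pow_right).mul_right (hN₂.pow_right)
  obtain ⟨u, v, huv⟩ := haM
  obtain ⟨u', v', huv'⟩ := hNM.mul_left (show IsCoprime (h 0 0) M0 from ⟨u, v, huv⟩)
  -- the elements `D`, `D'`
  obtain ⟨x, hx⟩ : ∃ x : ℤ, x = -(u * h 0 1) := ⟨_, rfl⟩
  obtain ⟨y, hy⟩ : ∃ y : ℤ, y = -(N * (u' * h' 1 0)) := ⟨_, rfl⟩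
  have hNy : (N : ℤ) ∣ y := by rw [hy]; exact Dvd.dvd.neg_right (Dvd.intro _ rfl)
  have mE1 : E21 (m * y) ∈ Gamma0 N := E21_mem (Dvd.dvd.mul_left hNy _)
  have mE2 : E21 y ∈ Gamma0 N := E21_mem hNy
  have hD : E21 (m * y) * h * E12 x ∈ Gamma0 N := mul_mem (mul_mem mE1 hh) (E12_mem N _)
  have hD' : E21 y * h' * E12 (m * x) ∈ Gamma0 N := mul_mem (mul_mem mE2 hh') (E12_mem N _)
  have hrelD : Rel m (E21 (m * y) * h * E12 x) (E21 y * h' * E12 (m * x)) :=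
    ((rel_E21 m y).mul (hm ▸ hrel)).mul (rel_E12 m x)
  have XD : X (E21 (m * y) * h * E12 x) = X h := by
    rw [hP.add _ _ (mul_mem mE1 hh) (E12_mem N _), hP.add _ _ mE1 hh, hP.E12,
      hP.E21 (Dvd.dvd.mul_left hNy _), zero_add, add_zero]
  have XD' : X (E21 y * h' * E12 (m * x)) = X h' := by
    rw [hP.add _ _ (mul_mem mE2 hh') (E12_mem N _), hP.add _ _ mE2 hh', hP.E12,
      hP.E21 hNy, zero_add, add_zero]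
  have D01 : M0 ∣ (E21 (m * y) * h * E12 x) 0 1 := by
    rw [mul_01, mul_00, mul_01]
    simp only [E21_00, E21_01, E12_01, E12_11]
    refine ⟨h 0 1 * v, ?_⟩
    rw [hx]
    linear_combination (-(h 0 1)) * huv
  have D10 : M0 ∣ (E21 (m * y) * h * E12 x) 1 0 := by
    rw [mul_10, mul_10, mul_11]
    simp only [E21_10, E21_11, E12_00, E12_10]
    refine ⟨m * h' 1 0 * v', ?_⟩
    rw [hy, hrel.2.2.1, ← hm]
    linear_combination (-(m * h' 1 0)) * huv'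
  obtain ⟨D, hDdef⟩ : ∃ D : SL(2, ℤ), D = E21 (m * y) * h * E12 x := ⟨_, rfl⟩
  obtain ⟨D', hD'def⟩ : ∃ D' : SL(2, ℤ), D' = E21 y * h' * E12 (m * x) := ⟨_, rfl⟩
  rw [← hDdef] at hD hrelD XD D01 D10
  rw [← hD'def] at hD' hrelD XD'
  -- the power
  obtain ⟨k, hk⟩ : ∃ k : ℕ, k = Nat.totient (π₁ ^ (J₁ + 2) * π₂ ^ (J₂ + 2)) := ⟨_, rfl⟩
  obtain ⟨p1, p2, p3, p4⟩ := diag_pow D01 D10 k
  have c00 : IsCoprime (D 0 0) M0 := by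
    obtain ⟨w, hw⟩ := D01
    exact ⟨D 1 1, -(w * D 1 0), by linear_combination det_eq D + (D 1 0) * hw⟩
  have c11 : IsCoprime (D 1 1) M0 := by
    obtain ⟨w, hw⟩ := D01
    exact ⟨D 0 0, -(w * D 1 0), by linear_combination det_eq D + (D 1 0) * hw⟩
  have t00 : M0 ∣ (D 0 0) ^ k - 1 := by
    rw [hM0', hk]; exact dvd_pow_totient_sub_one (hM0' ▸ c00)
  have t11 : M0 ∣ (D 1 1) ^ k - 1 := by
    rw [hM0', hk]; exact dvd_pow_totient_sub_one (hM0' ▸ c11)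
  have p5 : M0 ∣ (D ^ k) 1 1 - (D ^ k) 0 0 := by
    have : (D ^ k) 1 1 - (D ^ k) 0 0 = ((D ^ k) 1 1 - (D 1 1) ^ k) + ((D 1 1) ^ k - 1)
        - ((D ^ k) 0 0 - (D 0 0) ^ k) - ((D 0 0) ^ k - 1) := by ring
    rw [this]
    exact dvd_sub (dvd_sub (dvd_add p4 t11) p3) t00
  have key : X (D' ^ k) = X (D ^ k) :=
    stepB_deep hP hA₁ hA₂ hcop hN₁ hN₂ h₁0 h₂0 hn' (pow_mem hD k) (pow_mem hD' k)
      (hm ▸ hrelD.pow k) (hM0 ▸ p1) (hM0 ▸ p2) (hM0 ▸ p5)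
  rw [hP.pow hD', hP.pow hD] at key
  have hz : X D' - X D = 0 := by
    apply eq_zero_of_smul (k := k) (p := p) _ (hX.tors _)
      (hk ▸ not_dvd_totient hp h₁ h₂ h12 h₁p h₂p J₁ J₂)
    rw [smul_sub, key, sub_self]
  rw [← XD', ← XD]
  exact sub_eq_zero.mp hz

/-- Step B, symbol form. -/
theorem stepB_sym [NeZero N] (hq : q.Prime) (hqN : ¬ q ∣ N) (hp : p.Prime) (hX : Core N q p X)
    {π₁ π₂ : ℕ} (h₁ : π₁.Prime) (h₂ : π₂.Prime) (h12 : π₁ ≠ π₂)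
    (h₁2 : π₁ ≠ 2) (h₂2 : π₂ ≠ 2) (h₁N : ¬ π₁ ∣ N) (h₂N : ¬ π₂ ∣ N) (h₁q : π₁ ≠ q) (h₂q : π₂ ≠ q)
    (h₁p : ¬ p ∣ π₁ * (π₁ - 1)) (h₂p : ¬ p ∣ π₂ * (π₂ - 1))
    (hn : (N : ℤ) ∣ (π₁ : ℤ) * π₂ - 1)
    {a c : ℤ} (hac : IsCoprime a (((π₁ : ℤ) * π₂) ^ 2 * c)) (hc : (N : ℤ) ∣ c) :
    sym X a (((π₁ : ℤ) * π₂) ^ 2 * c) = sym X a c := by
  obtain ⟨g, hg, g0, g1⟩ := exists_mat (N := N) hac (Dvd.dvd.mul_left hc _)
  have hdet : a * g 1 1 - (((π₁ : ℤ) * π₂) ^ 2 * g 0 1) * c = 1 := by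
    have := det_eq g
    rw [g0, g1] at this
    linear_combination this
  have hg' : mk a (((π₁ : ℤ) * π₂) ^ 2 * g 0 1) c (g 1 1) hdet ∈ Gamma0 N :=
    mem_G0.mpr (by simpa using hc)
  have hrel : Rel (((π₁ : ℤ) * π₂) ^ 2) g (mk a (((π₁ : ℤ) * π₂) ^ 2 * g 0 1) c (g 1 1) hdet) :=
    ⟨by simp [g0], by simp, by simp [g1], by simp⟩
  have := stepB hq hqN hp hX h₁ h₂ h12 h₁2 h₂2 h₁N h₂N h₁q h₂q h₁p h₂p hn hg hg' hrel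
  rw [← hX.toPar.eq_sym' hg g0 g1, ← this]
  exact hX.toPar.eq_sym' hg' rfl rfl

end Fermat.Agent.S41.CSPL
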