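import Fermat.Agent.S41.CSPL.Defs

set_option autoImplicit false

/-!
# S41 / CSP : Step B, the formal parts

* `sb_sym_of_stepB` : the symbol form of Step B from the matrix form;
* `sb_of_B1` : (B2) reduction of Step B to the matrices which are scalar mod `M`.
-/

namespace Fermat.Agent.S41.CSPL

open Matrix Matrix.SpecialLinearGroup CongruenceSubgroup
open scoped MatrixGroups

theorem sb_rel_one (m : ℤ) : Rel m 1 1 := by
  refine ⟨rfl, ?_, ?_, rfl⟩ <;> simp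

theorem sb_rel_mul {m : ℤ} {g₁ g₁' g₂ g₂' : SL(2, ℤ)} (h₁ : Rel m g₁ g₁') (h₂ : Rel m g₂ g₂') :
    Rel m (g₁ * g₂) (g₁' * g₂') := by
  obtain ⟨a1, b1, c1, d1⟩ := h₁
  obtain ⟨a2, b2, c2, d2⟩ := h₂
  refine ⟨?_, ?_, ?_, ?_⟩
  · rw [mul_00, mul_00, a1, a2, b1, c2]; ring
  · rw [mul_01, mul_01, a1, b2, b1, d2]; ring
  · rw [mul_10, mul_10, c1, c2, a2, d1]; ring
  · rw [mul_11, mul_11, c1, b2, d1, d2]; ring

theorem sb_rel_pow {m : ℤ} {g g' : SL(2, ℤ)} (h : Rel m g g') (k : ℕ) :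
    Rel m (g ^ k) (g' ^ k) := by
  induction k with
  | zero => simpa using sb_rel_one m
  | succ k ih => rw [pow_succ, pow_succ]; exact sb_rel_mul ih h

theorem sb_rel_E12 (m x : ℤ) : Rel m (E12 x) (E12 (m * x)) := ⟨rfl, rfl, by simp, rfl⟩

theorem sb_rel_E21 (m y : ℤ) : Rel m (E21 (m * y)) (E21 y) := ⟨rfl, by simp, rfl, rfl⟩

/-- powers of a matrix which is diagonal mod `M`. -/
theorem sb_pow_diag {M : ℤ} {D : SL(2, ℤ)} (h01 : M ∣ D 0 1) (h10 : M ∣ D 1 0) (k : ℕ) :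
    M ∣ (D ^ k) 0 1 ∧ M ∣ (D ^ k) 1 0 ∧ M ∣ (D ^ k) 0 0 - (D 0 0) ^ k ∧
      M ∣ (D ^ k) 1 1 - (D 1 1) ^ k := by
  induction k with
  | zero => simp
  | succ k ih =>
    obtain ⟨i01, i10, i00, i11⟩ := ih
    rw [pow_succ]
    refine ⟨?_, ?_, ?_, ?_⟩
    · rw [mul_01]; exact dvd_add (Dvd.dvd.mul_left h01 _) (Dvd.dvd.mul_right i01 _)
    · rw [mul_10]; exact dvd_add (Dvd.dvd.mul_right i10 _) (Dvd.dvd.mul_left h10 _)
    · rw [mul_00, pow_succ]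
      have e : (D ^ k) 0 0 * D 0 0 + (D ^ k) 0 1 * D 1 0 - D 0 0 ^ k * D 0 0 =
          ((D ^ k) 0 0 - D 0 0 ^ k) * D 0 0 + (D ^ k) 0 1 * D 1 0 := by ring
      rw [e]
      exact dvd_add (Dvd.dvd.mul_right i00 _) (Dvd.dvd.mul_right i01 _)
    · rw [mul_11, pow_succ]
      have e : (D ^ k) 1 0 * D 0 1 + (D ^ k) 1 1 * D 1 1 - D 1 1 ^ k * D 1 1 =
          (D ^ k) 1 0 * D 0 1 + ((D ^ k) 1 1 - D 1 1 ^ k) * D 1 1 := by ring
      rw [e]
      exact dvd_add (Dvd.dvd.mul_right i10 _) (Dvd.dvd.mul_right i11 _)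

/-- Euler's theorem, integer form. -/
theorem sb_euler {M : ℕ} {a : ℤ} (h : IsCoprime a (M : ℤ)) :
    (M : ℤ) ∣ a ^ (Nat.totient M) - 1 := by
  have hu : IsUnit ((a : ℤ) : ZMod M) := by
    rwa [ZMod.coe_int_isUnit_iff_isCoprime, isCoprime_comm]
  obtain ⟨u, hu⟩ := hu
  have h1 := ZMod.pow_totient u
  rw [← ZMod.intCast_zmod_eq_zero_iff_dvd]
  push_cast
  rw [← hu, ← Units.val_pow_eq_pow_val, h1]
  simp

/-- an element killed by two coprime integers vanishes. -/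
theorem sb_eq_zero_of_coprime {F : Type*} [AddCommGroup F] {k p : ℕ} (h : Nat.Coprime k p) {y : F}
    (hk : k • y = 0) (hp : p • y = 0) : y = 0 := by
  obtain ⟨u, v, huv⟩ := Nat.isCoprime_iff_coprime.2 h
  have e : y = (u * (k : ℤ) + v * (p : ℤ)) • y := by rw [huv, one_smul]
  rw [e, add_smul, mul_smul, mul_smul, natCast_zsmul, natCast_zsmul, hk, hp, smul_zero, smul_zero,
    add_zero]

variable {N p : ℕ} {F : Type*} [AddCommGroup F] {X : SL(2, ℤ) → F}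

/-- the symbol form of Step B from the matrix form. -/
theorem sb_sym_of_stepB (hX : Par N X) {m : ℤ}
    (H : ∀ h h' : SL(2, ℤ), h ∈ Gamma0 N → h' ∈ Gamma0 N → Rel m h h' → X h' = X h)
    {a c : ℤ} (hac : IsCoprime a (m * c)) (hc : (N : ℤ) ∣ c) :
    sym X a (m * c) = sym X a c := by
  obtain ⟨g, hg, g0, g1⟩ := exists_mat (N := N) hac (Dvd.dvd.mul_left hc m)
  have hdet := det_eq g
  set g' : SL(2, ℤ) := mk a (m * g 0 1) c (g 1 1) (by
    rw [g0, g1] at hdet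
    linear_combination hdet) with hg'
  have hg'm : g' ∈ Gamma0 N := mem_G0.2 (by simpa [hg'] using hc)
  have hrel : Rel m g g' := ⟨by simp [hg', g0], by simp [hg'], by simp [hg', g1], by simp [hg']⟩
  rw [← hX.eq_sym' hg g0 g1, ← hX.eq_sym' hg'm (mk_00 _ _ _ _ _) (mk_10 _ _ _ _ _)]
  exact (H g g' hg hg'm hrel).symm

/-- (B2): Step B follows from Step B for the matrices which are scalar mod `M`. -/
theorem sb_of_B1 (hX : Par N X) (tors : ∀ x : F, p • x = 0) (hp : p.Prime)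
    {n : ℤ} {M : ℕ} (hM : ∀ a : ℤ, IsCoprime a n → IsCoprime a (M : ℤ))
    (hφ : ¬ p ∣ Nat.totient M)
    (B1 : ∀ h h' : SL(2, ℤ), h ∈ Gamma0 N → h' ∈ Gamma0 N → Rel (n ^ 2) h h' →
      (M : ℤ) ∣ h 0 1 → (M : ℤ) ∣ h 1 0 → (M : ℤ) ∣ h 1 1 - h 0 0 → X h' = X h)
    {h h' : SL(2, ℤ)} (hh : h ∈ Gamma0 N) (hh' : h' ∈ Gamma0 N) (hrel : Rel (n ^ 2) h h') :
    X h' = X h := by
  have r10 := hrel.2.2.1
  have hdet := det_eq h
  have han : IsCoprime (h 0 0) n := ⟨h 1 1, - h 0 1 * n * h' 1 0, by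
    rw [r10] at hdet
    linear_combination hdet⟩
  obtain ⟨u, v, huv⟩ := hM _ han
  obtain ⟨c'', hc''⟩ := mem_G0.1 hh'
  set D : SL(2, ℤ) := E21 (n ^ 2 * (-((N : ℤ) * (c'' * u)))) * h * E12 (-(h 0 1 * u)) with hD
  set D' : SL(2, ℤ) := E21 (-((N : ℤ) * (c'' * u))) * h' * E12 (n ^ 2 * (-(h 0 1 * u))) with hD'
  have hrelD : Rel (n ^ 2) D D' := sb_rel_mul (sb_rel_mul (sb_rel_E21 _ _) hrel) (sb_rel_E12 _ _)
  have hz : (N : ℤ) ∣ n ^ 2 * (-((N : ℤ) * (c'' * u))) := ⟨n ^ 2 * (-(c'' * u)), by ring⟩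
  have hz' : (N : ℤ) ∣ -((N : ℤ) * (c'' * u)) := ⟨-(c'' * u), by ring⟩
  have hDm : D ∈ Gamma0 N := mul_mem (mul_mem (E21_mem hz) hh) (E12_mem N _)
  have hD'm : D' ∈ Gamma0 N := mul_mem (mul_mem (E21_mem hz') hh') (E12_mem N _)
  have hXD : X D = X h := by
    rw [hD, hX.add _ _ (mul_mem (E21_mem hz) hh) (E12_mem N _), hX.add _ _ (E21_mem hz) hh,
      hX.E21 hz, hX.E12, zero_add, add_zero]
  have hXD' : X D' = X h' := by
    rw [hD', hX.add _ _ (mul_mem (E21_mem hz') hh') (E12_mem N _), hX.add _ _ (E21_mem hz') hh',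
      hX.E21 hz', hX.E12, zero_add, add_zero]
  have d00 : D 0 0 = h 0 0 := by
    rw [hD, mul_00, mul_00, mul_01]; simp
  have d01 : (M : ℤ) ∣ D 0 1 := by
    refine ⟨h 0 1 * v, ?_⟩
    rw [hD, mul_01, mul_00, mul_01]
    simp only [E21_00, E21_01, E12_01, E12_11]
    linear_combination (-(h 0 1)) * huv
  have d10 : (M : ℤ) ∣ D 1 0 := by
    refine ⟨n ^ 2 * N * c'' * v, ?_⟩
    rw [hD, mul_10, mul_10, mul_11]
    simp only [E21_10, E21_11, E12_00, E12_10]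
    rw [r10, hc'']
    linear_combination (-(n ^ 2 * N * c'')) * huv
  have hdetD := det_eq D
  have c00 : IsCoprime (D 0 0) (M : ℤ) := by
    rw [d00]
    exact ⟨u, v, huv⟩
  have c11 : IsCoprime (D 1 1) (M : ℤ) := by
    obtain ⟨w, hw⟩ := d01
    exact ⟨D 0 0, - w * D 1 0, by rw [hw] at hdetD; linear_combination hdetD⟩
  obtain ⟨k01, k10, k00, k11⟩ := sb_pow_diag d01 d10 (Nat.totient M)
  have e00 := sb_euler c00
  have e11 := sb_euler c11
  have kd : (M : ℤ) ∣ (D ^ Nat.totient M) 1 1 - (D ^ Nat.totient M) 0 0 := by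
    have := dvd_sub (dvd_add k11 e11) (dvd_add k00 e00)
    have e : (D ^ Nat.totient M) 1 1 - (D ^ Nat.totient M) 0 0 =
        ((D ^ Nat.totient M) 1 1 - D 1 1 ^ Nat.totient M + (D 1 1 ^ Nat.totient M - 1)) -
        ((D ^ Nat.totient M) 0 0 - D 0 0 ^ Nat.totient M + (D 0 0 ^ Nat.totient M - 1)) := by ring
    rw [e]
    exact this
  have hpow := B1 _ _ (pow_mem hDm _) (pow_mem hD'm _) (sb_rel_pow hrelD (Nat.totient M)) k01 k10 kd
  rw [hX.pow hD'm, hX.pow hDm] at hpow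
  have hzero : X D' - X D = 0 := by
    apply sb_eq_zero_of_coprime (k := Nat.totient M) (p := p)
    · exact ((Nat.Prime.coprime_iff_not_dvd hp).2 hφ).symm
    · rw [smul_sub, hpow, sub_self]
    · exact tors _
  rw [← hXD, ← hXD']
  exact sub_eq_zero.1 hzero

end Fermat.Agent.S41.CSPL
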