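import Fermat.Agent.S41.CSPL.StepB

set_option autoImplicit false

/-!
# S41 / CSP : Step C (the core theorem)
-/

namespace Fermat.Agent.S41.CSPL

open Matrix Matrix.SpecialLinearGroup CongruenceSubgroup
open scoped MatrixGroups

/-! ### elementary number theory -/

/-- coprimality to `m` only depends on the class mod `m`. -/
theorem sc_isCoprime_of_dvd_sub {a b m : ℤ} (h : IsCoprime a m) (hab : m ∣ b - a) :
    IsCoprime b m := by
  obtain ⟨t, ht⟩ := hab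
  have e : b = a + m * t := by linear_combination ht
  rw [e]
  exact IsCoprime.add_mul_left_left h t

/-- the Chinese remainder theorem. -/
theorem sc_crt {m₁ m₂ : ℤ} (h : IsCoprime m₁ m₂) (r₁ r₂ : ℤ) :
    ∃ r : ℤ, m₁ ∣ r - r₁ ∧ m₂ ∣ r - r₂ := by
  obtain ⟨u, v, huv⟩ := h
  refine ⟨r₁ * (v * m₂) + r₂ * (u * m₁), ⟨(r₂ - r₁) * u, ?_⟩, ⟨(r₁ - r₂) * v, ?_⟩⟩
  · linear_combination (r₁) * huv
  · linear_combination (r₂) * huv

/-- Dirichlet's theorem, integer form. -/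
theorem sc_dirichlet {m : ℤ} (hm : m ≠ 0) {r : ℤ} (h : IsCoprime r m) (B : ℕ) :
    ∃ π : ℕ, π.Prime ∧ B < π ∧ m ∣ (π : ℤ) - r := by
  have hm' : m.natAbs ≠ 0 := Int.natAbs_ne_zero.2 hm
  have h' : IsCoprime r (m.natAbs : ℤ) := by
    rw [Int.isCoprime_iff_gcd_eq_one] at h ⊢
    rw [← h]
    simp [Int.gcd, Int.natAbs_abs]
  obtain ⟨π, hB, hπ, he⟩ := Nat.forall_exists_prime_gt_and_zmodEq B hm' h'
  refine ⟨π, hπ, hB, ?_⟩
  have := (Int.modEq_iff_dvd.1 he.symm)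
  exact Int.natAbs_dvd.1 this

/-- Dirichlet's theorem with two moduli. -/
theorem sc_dirichlet₂ {m₁ m₂ : ℤ} (hm₁ : m₁ ≠ 0) (hm₂ : m₂ ≠ 0) (h : IsCoprime m₁ m₂) {r₁ r₂ : ℤ}
    (h₁ : IsCoprime r₁ m₁) (h₂ : IsCoprime r₂ m₂) (B : ℕ) :
    ∃ π : ℕ, π.Prime ∧ B < π ∧ m₁ ∣ (π : ℤ) - r₁ ∧ m₂ ∣ (π : ℤ) - r₂ := by
  obtain ⟨r, hr₁, hr₂⟩ := sc_crt h r₁ r₂
  have hc : IsCoprime r (m₁ * m₂) :=
    (sc_isCoprime_of_dvd_sub h₁ hr₁).mul_right (sc_isCoprime_of_dvd_sub h₂ hr₂)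
  obtain ⟨π, hπ, hB, hd⟩ := sc_dirichlet (mul_ne_zero hm₁ hm₂) hc B
  refine ⟨π, hπ, hB, ?_, ?_⟩
  · have := dvd_add ((Dvd.intro _ rfl : m₁ ∣ m₁ * m₂).trans hd) hr₁
    simpa using this
  · have := dvd_add ((Dvd.intro_left _ rfl : m₂ ∣ m₁ * m₂).trans hd) hr₂
    simpa using this

/-- (C1): a large prime `a' ≡ a mod c` together with a non-square `e₀ ∈ {q, -1}` mod `a'`. -/
theorem sc_exists_prime {q : ℕ} (hq : q.Prime) {a c : ℤ} (hac : IsCoprime a c)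
    (hqc : ¬ (q : ℤ) ∣ c) (B : ℕ) :
    ∃ a' : ℕ, a'.Prime ∧ B < a' ∧ c ∣ (a' : ℤ) - a ∧
      ∃ e₀ : ℤ, (e₀ = q ∨ e₀ = -1) ∧ ¬ IsSquare ((e₀ : ℤ) : ZMod a') := by
  have hc0 : c ≠ 0 := by
    rintro rfl
    exact hqc (dvd_zero _)
  have hqc' : IsCoprime (q : ℤ) c := (Nat.prime_iff_prime_int.1 hq).coprime_iff_not_dvd.2 hqc
  by_cases hq2 : q = 2
  · subst hq2
    have h8 : IsCoprime c (8 : ℤ) := by
      have h := (hqc'.symm).pow_right (n := 3)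
      norm_num at h
      exact h
    obtain ⟨a', ha', hB, h1, h2⟩ := sc_dirichlet₂ hc0 (by norm_num : (8 : ℤ) ≠ 0) h8 hac
      (by norm_num : IsCoprime (5 : ℤ) 8) (max B 2)
    have : Fact a'.Prime := ⟨ha'⟩
    have hne : a' ≠ 2 := (lt_of_le_of_lt (le_max_right _ _) hB).ne'
    refine ⟨a', ha', lt_of_le_of_lt (le_max_left _ _) hB, h1, 2, Or.inl rfl, ?_⟩
    have h3 := ZMod.exists_sq_eq_two_iff (p := a') hne
    push_cast
    rw [h3]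
    omega
  · have : Fact q.Prime := ⟨hq⟩
    obtain ⟨x, hx⟩ := FiniteField.exists_nonsquare (F := ZMod q)
      (by rw [ZMod.ringChar_zmod_n]; exact hq2)
    obtain ⟨r, rfl⟩ := ZMod.intCast_surjective x
    have hr : IsCoprime r (q : ℤ) := by
      rw [isCoprime_comm, (Nat.prime_iff_prime_int.1 hq).coprime_iff_not_dvd]
      intro hd
      apply hx
      rw [(ZMod.intCast_zmod_eq_zero_iff_dvd r q).2 hd]
      exact IsSquare.zero
    obtain ⟨a', ha', hB, h1, h2⟩ := sc_dirichlet₂ hc0 (by exact_mod_cast hq.ne_zero : (q : ℤ) ≠ 0)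
      hqc'.symm hac hr (max B 2)
    have : Fact a'.Prime := ⟨ha'⟩
    have hne : a' ≠ 2 := (lt_of_le_of_lt (le_max_right _ _) hB).ne'
    have hcast : ((a' : ℕ) : ZMod q) = ((r : ℤ) : ZMod q) := by
      have := (ZMod.intCast_eq_intCast_iff_dvd_sub r (a' : ℤ) q).2 h2
      rw [this]
      simp
    refine ⟨a', ha', lt_of_le_of_lt (le_max_left _ _) hB, h1, ?_⟩
    have hodd := ha'.eq_two_or_odd.resolve_left hne
    have h4 : a' % 4 = 1 ∨ a' % 4 = 3 := by omega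
    rcases h4 with h4 | h4
    · refine ⟨q, Or.inl rfl, ?_⟩
      push_cast
      rw [ZMod.exists_sq_eq_prime_iff_of_mod_four_eq_one h4 hq2, hcast]
      exact hx
    · refine ⟨-1, Or.inr rfl, ?_⟩
      push_cast
      rw [ZMod.exists_sq_eq_neg_one_iff]
      simpa using h4

/-- (C2): every unit mod `a'` is `e ν²` with `e ∈ {1, e₀}`. -/
theorem sc_exists_sq {a' : ℕ} (ha' : a'.Prime) (h2 : a' ≠ 2) {e₀ : ℤ}
    (he₀ : ¬ IsSquare ((e₀ : ℤ) : ZMod a')) {x : ℤ} (hx : IsCoprime x (a' : ℤ)) :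
    ∃ e ν : ℤ, (e = 1 ∨ e = e₀) ∧ IsCoprime ν (a' : ℤ) ∧ (a' : ℤ) ∣ x - e * ν ^ 2 := by
  have : Fact a'.Prime := ⟨ha'⟩
  have hpr := Nat.prime_iff_prime_int.1 ha'
  have hx0 : ((x : ℤ) : ZMod a') ≠ 0 := by
    intro h0
    rw [ZMod.intCast_zmod_eq_zero_iff_dvd] at h0
    exact (hpr.coprime_iff_not_dvd.1 hx.symm) h0
  have key : ∀ e : ℤ, ∀ y : ZMod a', ((x : ℤ) : ZMod a') = (e : ZMod a') * y ^ 2 →
      ∃ ν : ℤ, IsCoprime ν (a' : ℤ) ∧ (a' : ℤ) ∣ x - e * ν ^ 2 := by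
    intro e y hy
    obtain ⟨ν, rfl⟩ := ZMod.intCast_surjective y
    refine ⟨ν, ?_, ?_⟩
    · rw [isCoprime_comm, hpr.coprime_iff_not_dvd]
      intro hd
      apply hx0
      rw [hy, (ZMod.intCast_zmod_eq_zero_iff_dvd ν a').2 hd]
      simp
    · rw [← ZMod.intCast_zmod_eq_zero_iff_dvd]
      push_cast
      rw [hy]
      ring
  by_cases hsq : IsSquare ((x : ℤ) : ZMod a')
  · obtain ⟨y, hy⟩ := hsq
    obtain ⟨ν, h1, h3⟩ := key 1 y (by rw [hy]; push_cast; ring)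
    exact ⟨1, ν, Or.inl rfl, h1, h3⟩
  · have hchar : ringChar (ZMod a') ≠ 2 := by rw [ZMod.ringChar_zmod_n]; exact h2
    have he0 : ((e₀ : ℤ) : ZMod a') ≠ 0 := by
      intro h0
      apply he₀
      rw [h0]
      exact IsSquare.zero
    have h1 : quadraticChar (ZMod a') ((x : ℤ) : ZMod a') = -1 :=
      quadraticChar_neg_one_iff_not_isSquare.2 hsq
    have h3 : quadraticChar (ZMod a') ((e₀ : ℤ) : ZMod a') = -1 :=
      quadraticChar_neg_one_iff_not_isSquare.2 he₀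
    have h4 : IsSquare (((x : ℤ) : ZMod a') * ((e₀ : ℤ) : ZMod a')) := by
      rw [← quadraticChar_one_iff_isSquare (mul_ne_zero hx0 he0), map_mul, h1, h3]
      norm_num
    obtain ⟨y, hy⟩ := h4
    obtain ⟨ν, h5, h6⟩ := key e₀ (y / ((e₀ : ℤ) : ZMod a')) (by
      field_simp
      rw [hy]; ring)
    exact ⟨e₀, ν, Or.inr rfl, h5, h6⟩

/-- a prime `π ≡ -1 mod p` (`p` odd) satisfies `p ∤ π (π - 1)`. -/
theorem sc_not_dvd {p π : ℕ} (hp : p.Prime) (hp2 : p ≠ 2) (hπ : π.Prime)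
    (h : (p : ℤ) ∣ (π : ℤ) - (-1)) : ¬ p ∣ π * (π - 1) := by
  intro hd
  have h1 : p ∣ π + 1 := by
    have : (p : ℤ) ∣ ((π + 1 : ℕ) : ℤ) := by
      push_cast
      simpa using h
    exact_mod_cast this
  rcases (Nat.Prime.dvd_mul hp).1 hd with h2 | h2
  · have : p ∣ 1 := (Nat.dvd_add_right h2).1 h1
    exact hp.one_lt.ne' (Nat.dvd_one.1 this)
  · have h3 : p ∣ 2 := by
      have e : π + 1 = (π - 1) + 2 := by have := hπ.one_lt; omega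
      rw [e] at h1
      exact (Nat.dvd_add_right h2).1 h1
    exact hp2 ((Nat.prime_dvd_prime_iff_eq hp Nat.prime_two).1 h3)

variable {N q p : ℕ} {F : Type*} [AddCommGroup F] {X : SL(2, ℤ) → F}

theorem sc_sym_one (hX : Par N X) {c : ℤ} (hc : (N : ℤ) ∣ c) : sym X 1 c = 0 := by
  rw [← hX.eq_sym' (E21_mem hc) (E21_00 c) (E21_10 c)]
  exact hX.E21 hc

theorem sc_sym_of_one (hX : Par N X) {a c : ℤ} (hc : (N : ℤ) ∣ c) (ha : c ∣ a - 1) :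
    sym X a c = 0 := by
  rw [hX.sym_congr isCoprime_one_left hc ha, sc_sym_one hX hc]

/-- the symbol vanishes on `(a, c)`, `a ≡ 1 mod N`, `q ∤ c`. -/
theorem sc_sym_vanish [NeZero N] (hq : q.Prime) (hqN : ¬ q ∣ N) (hp : p.Prime) (hp2 : p ≠ 2)
    (hX : Core N q p X) {a c : ℤ} (hac : IsCoprime a c) (hc : (N : ℤ) ∣ c)
    (ha : (N : ℤ) ∣ a - 1) (hqc : ¬ (q : ℤ) ∣ c) : sym X a c = 0 := by
  have hN0 : N ≠ 0 := NeZero.ne N
  obtain ⟨c₀, rfl⟩ := hc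
  -- the prime `a'`
  obtain ⟨a', ha', hB, hd, e₀, he₀, hns⟩ := sc_exists_prime hq hac hqc (max (max N q) (max p 2))
  have hBN : N < a' := lt_of_le_of_lt ((le_max_left _ _).trans (le_max_left _ _)) hB
  have hBq : q < a' := lt_of_le_of_lt ((le_max_right _ _).trans (le_max_left _ _)) hB
  have hBp : p < a' := lt_of_le_of_lt ((le_max_left _ _).trans (le_max_right _ _)) hB
  have hB2 : 2 < a' := lt_of_le_of_lt ((le_max_right _ _).trans (le_max_right _ _)) hB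
  have hpr := Nat.prime_iff_prime_int.1 ha'
  have hac' : IsCoprime (a' : ℤ) ((N : ℤ) * c₀) := sc_isCoprime_of_dvd_sub hac hd
  have hc₀ : IsCoprime c₀ (a' : ℤ) := (hac'.of_mul_right_right).symm
  have haN : IsCoprime (a' : ℤ) (N : ℤ) := hac'.of_mul_right_left
  have hap : IsCoprime (a' : ℤ) (p : ℤ) :=
    Nat.isCoprime_iff_coprime.2 ((Nat.coprime_primes ha' hp).2 hBp.ne')
  have haq : IsCoprime (a' : ℤ) (q : ℤ) :=
    Nat.isCoprime_iff_coprime.2 ((Nat.coprime_primes ha' hq).2 hBq.ne')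
  obtain ⟨e, ν, he, hν, hdν⟩ := sc_exists_sq ha' hB2.ne' hns hc₀
  -- the primes `π₁`, `π₂`
  have hNp : IsCoprime ((N : ℤ) * p) (a' : ℤ) := (haN.mul_right hap).symm
  have hNp0 : (N : ℤ) * p ≠ 0 := by
    have := hp.ne_zero
    positivity
  have ha0 : (a' : ℤ) ≠ 0 := by exact_mod_cast ha'.ne_zero
  have hm1 : IsCoprime (-1 : ℤ) ((N : ℤ) * p) := isCoprime_one_left.neg_left
  obtain ⟨π₁, h₁, hB₁, h₁a, h₁b⟩ :=
    sc_dirichlet₂ hNp0 ha0 hNp hm1 (isCoprime_one_left : IsCoprime (1 : ℤ) (a' : ℤ)) a'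
  obtain ⟨π₂, h₂, hB₂, h₂a, h₂b⟩ := sc_dirichlet₂ hNp0 ha0 hNp hm1 hν π₁
  have hB₂' : a' < π₂ := hB₁.trans hB₂
  have haπ₁ : IsCoprime (a' : ℤ) (π₁ : ℤ) :=
    Nat.isCoprime_iff_coprime.2 ((Nat.coprime_primes ha' h₁).2 hB₁.ne)
  have haπ₂ : IsCoprime (a' : ℤ) (π₂ : ℤ) :=
    Nat.isCoprime_iff_coprime.2 ((Nat.coprime_primes ha' h₂).2 hB₂'.ne)
  have hae : IsCoprime (a' : ℤ) e := by
    rcases he with rfl | rfl
    · exact isCoprime_one_right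
    · rcases he₀ with rfl | rfl
      · exact haq
      · exact isCoprime_one_right.neg_right
  have hNa' : (N : ℤ) ∣ (a' : ℤ) - 1 := by
    have := dvd_add ((Dvd.intro _ rfl : (N : ℤ) ∣ (N : ℤ) * c₀).trans hd) ha
    simpa using this
  -- the chain of equalities
  have s1 : sym X a ((N : ℤ) * c₀) = sym X a' ((N : ℤ) * c₀) :=
    (hX.toPar.sym_congr hac (Dvd.intro _ rfl) hd).symm
  have s2 : sym X a' (((π₁ : ℤ) * π₂) ^ 2 * ((N : ℤ) * e)) = sym X a' ((N : ℤ) * c₀) := by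
    apply hX.toPar.sym_congr' hac' (Dvd.intro _ rfl)
    obtain ⟨k₁, hk₁⟩ := h₁b
    obtain ⟨k₂, hk₂⟩ := h₂b
    obtain ⟨k₃, hk₃⟩ := hdν
    refine ⟨e * (k₁ * π₂ + k₂) * ((π₁ : ℤ) * π₂ + ν) - k₃, ?_⟩
    linear_combination ((N : ℤ) * e * π₂ * ((π₁ : ℤ) * π₂ + ν)) * hk₁ +
      ((N : ℤ) * e * ((π₁ : ℤ) * π₂ + ν)) * hk₂ - (N : ℤ) * hk₃
  have s3 : sym X a' (((π₁ : ℤ) * π₂) ^ 2 * ((N : ℤ) * e)) = sym X a' ((N : ℤ) * e) := by
    refine stepB_sym hq hqN hp hX h₁ h₂ hB₂.ne (hB2.trans hB₁).ne' (hB2.trans hB₂').ne' ?_ ?_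
      (hBq.trans hB₁).ne' (hBq.trans hB₂').ne' ?_ ?_ ?_ ?_ (Dvd.intro _ rfl)
    · exact fun hd => absurd (Nat.le_of_dvd (Nat.pos_of_ne_zero hN0) hd) (hBN.trans hB₁).not_ge
    · exact fun hd => absurd (Nat.le_of_dvd (Nat.pos_of_ne_zero hN0) hd) (hBN.trans hB₂').not_ge
    · exact sc_not_dvd hp hp2 h₁ ((Dvd.intro_left _ rfl).trans h₁a)
    · exact sc_not_dvd hp hp2 h₂ ((Dvd.intro_left _ rfl).trans h₂a)
    · obtain ⟨k₁, hk₁⟩ := (Dvd.intro _ rfl : (N : ℤ) ∣ (N : ℤ) * p).trans h₁a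
      obtain ⟨k₂, hk₂⟩ := (Dvd.intro _ rfl : (N : ℤ) ∣ (N : ℤ) * p).trans h₂a
      refine ⟨k₁ * π₂ - k₂, ?_⟩
      linear_combination (π₂ : ℤ) * hk₁ - hk₂
    · exact ((haπ₁.mul_right haπ₂).pow_right).mul_right (haN.mul_right hae)
  have s4 : sym X a' ((N : ℤ) * e) = 0 := by
    rcases he with rfl | rfl
    · exact sc_sym_of_one hX.toPar (Dvd.intro _ rfl) (by simpa using hNa')
    · rcases he₀ with rfl | rfl
      · exact hX.sym_base (haN.mul_right haq) hNa'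
      · exact sc_sym_of_one hX.toPar (Dvd.intro _ rfl) (by simpa using hNa')
  rw [s1, ← s2, s3, s4]

/-- the core theorem: `X` vanishes on `Γ₁(N)`. -/
theorem core_vanish [NeZero N] (hq : q.Prime) (hqN : ¬ q ∣ N) (hp : p.Prime) (hp2 : p ≠ 2)
    (hX : Core N q p X) {g : SL(2, ℤ)} (hg : g ∈ Gamma1 N) : X g = 0 := by
  have hg0 : g ∈ Gamma0 N := Gamma1_in_Gamma0 N hg
  rw [Gamma1_mem] at hg
  obtain ⟨h00, -, -⟩ := hg
  have ha : (N : ℤ) ∣ g 0 0 - 1 := by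
    rw [← ZMod.intCast_zmod_eq_zero_iff_dvd]
    push_cast
    rw [h00, sub_self]
  have hc : (N : ℤ) ∣ g 1 0 := mem_G0.1 hg0
  have hco := isCoprime_col g
  have hqpr := Nat.prime_iff_prime_int.1 hq
  rw [hX.toPar.eq_sym hg0]
  by_cases hqc : (q : ℤ) ∣ g 1 0
  · rw [← hX.toPar.sym_add_mul' hco hc 1]
    refine sc_sym_vanish hq hqN hp hp2 hX ?_ ?_ ha ?_
    · exact IsCoprime.add_mul_right_right hco _
    · exact dvd_add hc ⟨1 * g 0 0, by ring⟩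
    · intro hd
      have h1 : (q : ℤ) ∣ (N : ℤ) * 1 * g 0 0 := (dvd_add_right hqc).1 hd
      rw [mul_one] at h1
      rcases hqpr.dvd_or_dvd h1 with h2 | h2
      · exact hqN (by exact_mod_cast h2)
      · exact hqpr.not_isUnit (hco.isUnit_of_dvd' h2 hqc)
  · exact sc_sym_vanish hq hqN hp hp2 hX hco hc ha hqc

end Fermat.Agent.S41.CSPL
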